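import Mathlib
import Fermat.Prelude.Def_AlgebraicCurve_DivisorClassGroup
import Fermat.Prelude.Def_AlgebraicCurve_Repartitions
import Fermat.Agent.Lib.FFPlaces

/-!
# Function field toolbox in any characteristic, part 1: places and the two charts

`F / K` a field extension, `x : F` with `F / K(x)` finite and **separable** (no hypothesis on the
characteristic).  This is the port of the characteristic-zero toolbox `Lib/FFPlaces` (whose
characteristic-free parts are reused verbatim, under the names `FFPlaces.polyRing K x = K[x]`,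
`FFPlaces.intRing K x =` the integral closure of `K[x]` in `F`, `FFPlaces.xSub`, ...): places
containing `x` are the height one primes of the integral closure of `K[x]`, every place contains
`x` or `x⁻¹`, places have degree one over an algebraically closed `K`, and the zeros (poles) of
`x - a` are finite in number and, counted with multiplicity, there are `[F : K(x)]` of them.
-/

set_option autoImplicit false

noncomputable section

namespace Fermat.Agent.Lib.FFSep

open AlgebraicCurve IsDedekindDomain WithZero

section Concrete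

open IntermediateField IntermediateField.algebraAdjoinAdjoin

variable (K : Type*) {F : Type*} [Field K] [Field F] [Algebra K F] (x : F)
variable [FiniteDimensional K⟮x⟯ F] [Algebra.IsSeparable K⟮x⟯ F]

omit [Algebra.IsSeparable K⟮x⟯ F] in
instance instIsFractionRingIntRing : IsFractionRing (FFPlaces.intRing K x) F :=
  integralClosure.isFractionRing_of_finite_extension K⟮x⟯ F

instance instIsDedekindDomainIntRing : IsDedekindDomain (FFPlaces.intRing K x) :=
  integralClosure.isDedekindDomain (FFPlaces.polyRing K x) K⟮x⟯ F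

instance instFiniteIntRing : Module.Finite (FFPlaces.polyRing K x) (FFPlaces.intRing K x) :=
  IsIntegralClosure.finite (FFPlaces.polyRing K x) K⟮x⟯ F (FFPlaces.intRing K x)

instance instFreeIntRing : Module.Free (FFPlaces.polyRing K x) (FFPlaces.intRing K x) :=
  IsIntegralClosure.module_free (FFPlaces.polyRing K x) K⟮x⟯ F (FFPlaces.intRing K x)

theorem finrank_intRing :
    Module.finrank (FFPlaces.polyRing K x) (FFPlaces.intRing K x) = Module.finrank K⟮x⟯ F :=
  IsIntegralClosure.rank (FFPlaces.polyRing K x) K⟮x⟯ F (FFPlaces.intRing K x)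

instance instFiniteTypeIntRing : Algebra.FiniteType K (FFPlaces.intRing K x) :=
  Algebra.FiniteType.trans (inferInstance : Algebra.FiniteType K (FFPlaces.polyRing K x))
    inferInstance

variable {K x}

/-- A place containing `x` comes from a height one prime of the integral closure of `K[x]`. -/
theorem exists_heightOneSpectrum (v : Place K F) (hx : x ∈ v.toValuationSubring) :
    ∃ w : HeightOneSpectrum (FFPlaces.intRing K x), v = Place.ofHeightOneSpectrum w := by
  obtain ⟨w, hw⟩ := FFPlaces.exists_heightOneSpectrum_of_le (R := FFPlaces.intRing K x)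
    v.toValuationSubring v.ne_top' (fun r => FFPlaces.intRing_mem v hx r)
  exact ⟨w, Place.ext hw⟩

theorem ofHeightOneSpectrum_injective :
    Function.Injective
      (Place.ofHeightOneSpectrum (K := K) (F := F) (R := FFPlaces.intRing K x)) := by
  intro w w' h
  exact FFPlaces.valuationSubring_injective (congrArg Place.toValuationSubring h)

theorem exists_unique_heightOneSpectrum (v : Place K F) (hx : x ∈ v.toValuationSubring) :
    ∃! w : HeightOneSpectrum (FFPlaces.intRing K x), v = Place.ofHeightOneSpectrum w := by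
  obtain ⟨w, hw⟩ := exists_heightOneSpectrum v hx
  exact ⟨w, hw, fun w' hw' => ofHeightOneSpectrum_injective (hw'.symm.trans hw)⟩

theorem mem_ofHeightOneSpectrum (w : HeightOneSpectrum (FFPlaces.intRing K x)) :
    x ∈ (Place.ofHeightOneSpectrum (K := K) w).toValuationSubring := by
  show x ∈ (w.valuation F).valuationSubring
  rw [Valuation.mem_valuationSubring_iff]
  exact w.valuation_le_one (FFPlaces.xInt (K := K) (x := x))

theorem deg_eq_one_of_mem [IsAlgClosed K] (v : Place K F) (hx : x ∈ v.toValuationSubring) :
    v.deg = 1 := by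
  obtain ⟨w, rfl⟩ := exists_heightOneSpectrum v hx
  exact FFPlaces.deg_ofHeightOneSpectrum w

end Concrete

section Fundamental

open IntermediateField IntermediateField.algebraAdjoinAdjoin

variable {K F : Type*} [Field K] [Field F] [Algebra K F] {x : F}
variable [FiniteDimensional K⟮x⟯ F] [Algebra.IsSeparable K⟮x⟯ F]

/-- The order of `x - a` at the place of a height one prime over `(x - a)` is the ramification
index. -/
theorem ord_eq_ramificationIdx (hxt : Transcendental K x) (a : K)
    (w : HeightOneSpectrum (FFPlaces.intRing K x)) (hw : FFPlaces.xSubInt K x a ∈ w.asIdeal) :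
    (Place.ofHeightOneSpectrum (K := K) w).ord (x - algebraMap K F a) =
      (w.asIdeal.ramificationIdx (FFPlaces.polyRing K x) : ℤ) := by
  have hlo : w.asIdeal.LiesOver (Ideal.span {FFPlaces.xSub K x a}) :=
    (FFPlaces.liesOver_iff_mem hxt a _).mpr hw
  have hne : (Ideal.span {FFPlaces.xSub K x a}).map
      (algebraMap (FFPlaces.polyRing K x) (FFPlaces.intRing K x)) ≠ ⊥ := by
    rw [FFPlaces.map_span_xSub, Ne, Ideal.span_singleton_eq_bot]
    exact FFPlaces.xSubInt_ne_zero hxt a
  rw [FFPlaces.ord_ofHeightOneSpectrum,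
    Ideal.IsDedekindDomain.ramificationIdx_eq_multiplicity (Ideal.span {FFPlaces.xSub K x a})
      w.asIdeal hne,
    FFPlaces.map_span_xSub]
  have h1 : w.valuation F (x - algebraMap K F a) = w.intValuation (FFPlaces.xSubInt K x a) := by
    rw [← w.valuation_of_algebraMap (K := F)]
    rfl
  rw [h1, w.intValuation_eq_exp_neg_multiplicity (FFPlaces.xSubInt_ne_zero hxt a), log_exp,
    neg_neg]

/-- Inertia degrees are one. -/
theorem inertiaDeg_eq_one [IsAlgClosed K] (hxt : Transcendental K x) (a : K)
    (q : Ideal (FFPlaces.intRing K x)) [hq : q.IsPrime]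
    [hlo : q.LiesOver (Ideal.span {FFPlaces.xSub K x a})] :
    q.inertiaDeg (FFPlaces.polyRing K x) = 1 := by
  have hmax := FFPlaces.isMaximal_span_xSub hxt a
  have hq0 : q ≠ ⊥ :=
    FFPlaces.ne_bot_of_xSubInt_mem hxt a q ((FFPlaces.liesOver_iff_mem hxt a q).mp hlo)
  have hqmax : q.IsMaximal := hq.isMaximal hq0
  rw [Ideal.inertiaDeg_eq_of_isMaximal (Ideal.span {FFPlaces.xSub K x a}) q]
  have hinj : Function.Injective
      (Algebra.linearMap (FFPlaces.polyRing K x ⧸ Ideal.span {FFPlaces.xSub K x a})
        (FFPlaces.intRing K x ⧸ q)) :=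
    FaithfulSMul.algebraMap_injective _ _
  have hsurj : Function.Surjective
      (Algebra.linearMap (FFPlaces.polyRing K x ⧸ Ideal.span {FFPlaces.xSub K x a})
        (FFPlaces.intRing K x ⧸ q)) := by
    intro z
    obtain ⟨b, rfl⟩ := Ideal.Quotient.mk_surjective z
    obtain ⟨c, hc⟩ := FFPlaces.exists_sub_mem_asIdeal (K := K)
      (⟨q, hq, hq0⟩ : HeightOneSpectrum (FFPlaces.intRing K x)) b
    refine ⟨Ideal.Quotient.mk _ (algebraMap K (FFPlaces.polyRing K x) c), ?_⟩
    rw [Algebra.linearMap_apply, Ideal.Quotient.algebraMap_mk_of_liesOver]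
    symm
    exact (Ideal.Quotient.eq).mpr hc
  have hnt : Nontrivial (FFPlaces.polyRing K x ⧸ Ideal.span {FFPlaces.xSub K x a}) :=
    Ideal.Quotient.nontrivial_iff.mpr hmax.ne_top
  let _ : Module (FFPlaces.polyRing K x ⧸ Ideal.span {FFPlaces.xSub K x a})
    (FFPlaces.intRing K x ⧸ q) := Algebra.toModule
  have e : (FFPlaces.polyRing K x ⧸ Ideal.span {FFPlaces.xSub K x a})
      ≃ₗ[FFPlaces.polyRing K x ⧸ Ideal.span {FFPlaces.xSub K x a}]
      (FFPlaces.intRing K x ⧸ q) :=
    LinearEquiv.ofBijective
      (Algebra.linearMap (FFPlaces.polyRing K x ⧸ Ideal.span {FFPlaces.xSub K x a})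
        (FFPlaces.intRing K x ⧸ q)) ⟨hinj, hsurj⟩
  have h1 := e.finrank_eq
  rw [← h1]
  exact Module.finrank_self _

/-- Positivity of the order of `x - a` at the place of `w` is membership of `x - a` in `w`. -/
theorem ord_pos_iff_xSubInt_mem (hxt : Transcendental K x) (a : K)
    (w : HeightOneSpectrum (FFPlaces.intRing K x)) :
    0 < (Place.ofHeightOneSpectrum (K := K) w).ord (x - algebraMap K F a) ↔
      FFPlaces.xSubInt K x a ∈ w.asIdeal := by
  rw [FFPlaces.ord_ofHeightOneSpectrum]
  have h1 : w.valuation F (x - algebraMap K F a) = w.intValuation (FFPlaces.xSubInt K x a) := by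
    rw [← w.valuation_of_algebraMap (K := F)]
    rfl
  have hne : w.intValuation (FFPlaces.xSubInt K x a) ≠ 0 :=
    w.intValuation_ne_zero _ (FFPlaces.xSubInt_ne_zero hxt a)
  rw [h1, ← w.intValuation_lt_one_iff_mem, neg_pos, ← WithZero.log_lt_log hne one_ne_zero,
    WithZero.log_one]

/-- The place attached to a prime of the integral closure over `(x - a)`. -/
def placeOver (hxt : Transcendental K x) (a : K)
    (q : (Ideal.span {FFPlaces.xSub K x a}).primesOver (FFPlaces.intRing K x)) : Place K F :=
  Place.ofHeightOneSpectrum (K := K)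
    (⟨q.1, q.2.1, FFPlaces.ne_bot_of_xSubInt_mem hxt a q.1 (by
      have := q.2.1
      exact (FFPlaces.liesOver_iff_mem hxt a q.1).mp q.2.2)⟩ :
      HeightOneSpectrum (FFPlaces.intRing K x))

theorem placeOver_injective (hxt : Transcendental K x) (a : K) :
    Function.Injective (placeOver hxt a) := by
  intro q q' h
  have h1 := ofHeightOneSpectrum_injective h
  exact Subtype.ext (congrArg HeightOneSpectrum.asIdeal h1)

/-- The places where `x - a` has a zero are exactly the places of the primes over `(x - a)`. -/
theorem range_placeOver (hxt : Transcendental K x) (a : K) :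
    Set.range (placeOver hxt a) = {v : Place K F | 0 < v.ord (x - algebraMap K F a)} := by
  ext v
  constructor
  · rintro ⟨q, rfl⟩
    have := q.2.1
    exact (ord_pos_iff_xSubInt_mem hxt a _).mpr ((FFPlaces.liesOver_iff_mem hxt a q.1).mp q.2.2)
  · intro hv
    have hv' : 0 < v.ord (x - algebraMap K F a) := hv
    have hmem : x - algebraMap K F a ∈ v.toValuationSubring :=
      (FFPlaces.mem_iff_ord_nonneg v (FFPlaces.sub_algebraMap_ne_zero hxt a)).mpr hv'.le
    have hx : x ∈ v.toValuationSubring := by
      have := v.toValuationSubring.add_mem _ _ hmem (v.algebraMap_mem' a)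
      simpa using this
    obtain ⟨w, rfl⟩ := exists_heightOneSpectrum v hx
    have hw : FFPlaces.xSubInt K x a ∈ w.asIdeal := (ord_pos_iff_xSubInt_mem hxt a w).mp hv'
    have := w.isPrime
    exact ⟨⟨w.asIdeal, w.isPrime, (FFPlaces.liesOver_iff_mem hxt a w.asIdeal).mpr hw⟩, rfl⟩

/-- `x - a` has finitely many zeros. -/
theorem finite_zeros (hxt : Transcendental K x) (a : K) :
    {v : Place K F | 0 < v.ord (x - algebraMap K F a)}.Finite := by
  rw [← range_placeOver hxt a]
  have : Finite ((Ideal.span {FFPlaces.xSub K x a}).primesOver (FFPlaces.intRing K x)) :=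
    Algebra.QuasiFinite.finite_primesOver _
  exact Set.finite_range _

/-- **Fundamental identity**: the zeros of `x - a`, counted with multiplicity, are `[F : K(x)]`
many. -/
theorem sum_ord_zeros [IsAlgClosed K] (hxt : Transcendental K x) (a : K) :
    ∑ᶠ v ∈ {v : Place K F | 0 < v.ord (x - algebraMap K F a)}, v.ord (x - algebraMap K F a) =
      (Module.finrank K⟮x⟯ F : ℤ) := by
  have hmax := FFPlaces.isMaximal_span_xSub hxt a
  have hfin : ((Ideal.span {FFPlaces.xSub K x a}).primesOver (FFPlaces.intRing K x)).Finite :=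
    Algebra.QuasiFinite.finite_primesOver _
  let _ : Fintype ((Ideal.span {FFPlaces.xSub K x a}).primesOver (FFPlaces.intRing K x)) :=
    hfin.fintype
  rw [← range_placeOver hxt a, finsum_mem_range (placeOver_injective hxt a),
    finsum_eq_sum_of_fintype, ← finrank_intRing (K := K) (x := x),
    ← Ideal.sum_ramification_inertia_eq_finrank (Ideal.span {FFPlaces.xSub K x a})
      (FFPlaces.intRing K x),
    Nat.cast_sum]
  refine Finset.sum_congr rfl fun q _ => ?_
  have := q.2.1
  have := q.2.2
  have hq : FFPlaces.xSubInt K x a ∈ q.1 := (FFPlaces.liesOver_iff_mem hxt a q.1).mp q.2.2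
  rw [inertiaDeg_eq_one hxt a q.1, mul_one]
  exact ord_eq_ramificationIdx hxt a _ hq

end Fundamental

section Poles

open IntermediateField

variable {K F : Type*} [Field K] [Field F] [Algebra K F]

theorem isSeparable_of_eq {E E' : IntermediateField K F} (h : E = E')
    [hE : Algebra.IsSeparable E F] : Algebra.IsSeparable E' F := by
  subst h
  exact hE

variable {x : F} [FiniteDimensional K⟮x⟯ F] [Algebra.IsSeparable K⟮x⟯ F]

/-- `x` has finitely many zeros. -/
theorem finite_zeros_self (hxt : Transcendental K x) : {v : Place K F | 0 < v.ord x}.Finite := by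
  simpa using finite_zeros hxt 0

/-- The zeros of `x`, counted with multiplicity, are `[F : K(x)]` many. -/
theorem sum_ord_zeros_self [IsAlgClosed K] (hxt : Transcendental K x) :
    ∑ᶠ v ∈ {v : Place K F | 0 < v.ord x}, v.ord x = (Module.finrank K⟮x⟯ F : ℤ) := by
  simpa using sum_ord_zeros hxt 0

/-- `x` has finitely many poles. -/
theorem finite_poles (hxt : Transcendental K x) : {v : Place K F | v.ord x < 0}.Finite := by
  have : FiniteDimensional K⟮x⁻¹⟯ F :=
    FFPlaces.finiteDimensional_of_eq (FFPlaces.adjoin_inv (K := K) x).symm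
  have : Algebra.IsSeparable K⟮x⁻¹⟯ F := isSeparable_of_eq (FFPlaces.adjoin_inv (K := K) x).symm
  rw [FFPlaces.poles_eq]
  exact finite_zeros (FFPlaces.transcendental_inv hxt) 0

/-- The poles of `x`, counted with multiplicity, are `[F : K(x)]` many. -/
theorem sum_ord_poles [IsAlgClosed K] (hxt : Transcendental K x) :
    ∑ᶠ v ∈ {v : Place K F | v.ord x < 0}, v.ord x = -(Module.finrank K⟮x⟯ F : ℤ) := by
  have : FiniteDimensional K⟮x⁻¹⟯ F :=
    FFPlaces.finiteDimensional_of_eq (FFPlaces.adjoin_inv (K := K) x).symm
  have : Algebra.IsSeparable K⟮x⁻¹⟯ F := isSeparable_of_eq (FFPlaces.adjoin_inv (K := K) x).symm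
  have h := sum_ord_zeros (FFPlaces.transcendental_inv hxt) 0
  rw [← FFPlaces.poles_eq, FFPlaces.finrank_of_eq (FFPlaces.adjoin_inv (K := K) x)] at h
  have hneg : ∑ᶠ v ∈ {v : Place K F | v.ord x < 0}, v.ord x =
      ∑ᶠ v ∈ {v : Place K F | v.ord x < 0}, -(v.ord (x⁻¹ - algebraMap K F 0)) :=
    finsum_mem_congr rfl fun v _ => by simp [Place.ord_inv]
  rw [hneg, finsum_mem_neg_distrib _ (finite_poles hxt), h]

end Poles

section Charts

open IntermediateField

variable {K F : Type*} [Field K] [Field F] [Algebra K F]

/-- The ultrametric inequality for the Prelude `ord`. -/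
theorem min_ord_le_ord_add (v : Place K F) {f g : F} (hfg : f + g ≠ 0) :
    min (v.ord f) (v.ord g) ≤ v.ord (f + g) := by
  rcases eq_or_ne f 0 with rfl | hf
  · simp
  rcases eq_or_ne g 0 with rfl | hg
  · simp
  have h := Valuation.map_add v.adicValuation f g
  rw [v.adicValuation_eq_exp_neg_ord hfg, v.adicValuation_eq_exp_neg_ord hf,
    v.adicValuation_eq_exp_neg_ord hg, le_max_iff, exp_le_exp, exp_le_exp] at h
  rcases h with h | h
  · exact (min_le_left _ _).trans (by omega)
  · exact (min_le_right _ _).trans (by omega)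

theorem ord_neg_eq (v : Place K F) (g : F) : v.ord (-g) = v.ord g := by
  have hm1 : v.ord (-1 : F) = 0 := by
    have : (-1 : F) = algebraMap K F (-1) := by simp
    rw [this]
    exact FFPlaces.ord_algebraMap v _
  rcases eq_or_ne g 0 with h | h
  · rw [h, neg_zero]
  · rw [← neg_one_mul, v.ord_mul (by simp) h, hm1, zero_add]

/-- "`g` lies in the maximal ideal of `v`" is stable under addition. -/
theorem eq_zero_or_ord_pos_add (v : Place K F) {g h : F} (hg : g = 0 ∨ 0 < v.ord g)
    (hh : h = 0 ∨ 0 < v.ord h) : g + h = 0 ∨ 0 < v.ord (g + h) := by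
  by_cases h0 : g + h = 0
  · exact Or.inl h0
  right
  rcases hg with rfl | hg
  · rcases hh with rfl | hh
    · simp at h0
    · simpa using hh
  rcases hh with rfl | hh
  · simpa using hg
  exact lt_of_lt_of_le (lt_min hg hh) (min_ord_le_ord_add v h0)

theorem ord_sub_algebraMap_of_neg (v : Place K F) {f : F} (hf : v.ord f < 0) (a : K) :
    v.ord (f - algebraMap K F a) = v.ord f := by
  have hne : f - algebraMap K F a ≠ 0 := by
    intro h
    rw [sub_eq_zero.mp h, FFPlaces.ord_algebraMap] at hf
    exact lt_irrefl _ hf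
  have hf0 : f ≠ 0 := by
    rintro rfl
    simp at hf
  have h3 := min_ord_le_ord_add v (f := f) (g := -algebraMap K F a)
    (by rwa [← sub_eq_add_neg])
  have h4 := min_ord_le_ord_add v (f := f - algebraMap K F a) (g := algebraMap K F a)
    (by rwa [sub_add_cancel])
  rw [← sub_eq_add_neg, ord_neg_eq, FFPlaces.ord_algebraMap, min_eq_left (le_of_lt hf)] at h3
  rw [sub_add_cancel, FFPlaces.ord_algebraMap] at h4
  rcases min_le_iff.mp h4 with h | h
  · omega
  · omega

variable (x : F) in
/-- Every place contains `x` or `x⁻¹`. -/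
theorem mem_or_inv_mem (v : Place K F) :
    x ∈ v.toValuationSubring ∨ x⁻¹ ∈ v.toValuationSubring :=
  v.toValuationSubring.mem_or_inv_mem x

theorem finiteDimensional_inv (x : F) [FiniteDimensional K⟮x⟯ F] : FiniteDimensional K⟮x⁻¹⟯ F :=
  FFPlaces.finiteDimensional_of_eq (FFPlaces.adjoin_inv (K := K) x).symm

theorem isSeparable_inv (x : F) [Algebra.IsSeparable K⟮x⟯ F] : Algebra.IsSeparable K⟮x⁻¹⟯ F :=
  isSeparable_of_eq (FFPlaces.adjoin_inv (K := K) x).symm

/-- Every place has degree one over an algebraically closed field of constants. -/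
theorem deg_eq_one [IsAlgClosed K] (x : F) [FiniteDimensional K⟮x⟯ F]
    [Algebra.IsSeparable K⟮x⟯ F] (v : Place K F) : v.deg = 1 := by
  rcases mem_or_inv_mem x v with h | h
  · exact deg_eq_one_of_mem v h
  · have := finiteDimensional_inv (K := K) x
    have := isSeparable_inv (K := K) x
    exact deg_eq_one_of_mem v h

/-- The residue field of every place is `K` (valuation form, chart `x`). -/
theorem exists_residue_of_mem [IsAlgClosed K] {x : F} [FiniteDimensional K⟮x⟯ F]
    [Algebra.IsSeparable K⟮x⟯ F] (v : Place K F) (hx : x ∈ v.toValuationSubring)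
    {f : F} (hf : f ∈ v.toValuationSubring) :
    ∃ a : K, f = algebraMap K F a ∨ 0 < v.ord (f - algebraMap K F a) := by
  obtain ⟨w, rfl⟩ := exists_heightOneSpectrum v hx
  have hy : w.valuation F f ≤ 1 := (Valuation.mem_valuationSubring_iff _ _).mp hf
  obtain ⟨a, ha⟩ := FFPlaces.exists_valuation_sub_lt_one (K := K) w f hy
  refine ⟨a, ?_⟩
  by_cases h0 : f - algebraMap K F a = 0
  · exact Or.inl (sub_eq_zero.mp h0)
  · right
    rw [FFPlaces.ord_ofHeightOneSpectrum, neg_pos,
      ← WithZero.log_one, WithZero.log_lt_log ((Valuation.ne_zero_iff _).mpr h0) one_ne_zero]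
    exact ha

/-- The residue field of every place is `K`: every element of the valuation ring is congruent
to a constant. -/
theorem exists_residue [IsAlgClosed K] (x : F) [FiniteDimensional K⟮x⟯ F]
    [Algebra.IsSeparable K⟮x⟯ F] (v : Place K F) {f : F} (hf : f ∈ v.toValuationSubring) :
    ∃ a : K, f = algebraMap K F a ∨ 0 < v.ord (f - algebraMap K F a) := by
  rcases mem_or_inv_mem x v with h | h
  · exact exists_residue_of_mem v h hf
  · have := finiteDimensional_inv (K := K) x
    have := isSeparable_inv (K := K) x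
    exact exists_residue_of_mem v h hf

/-- The constant of `exists_residue` is unique. -/
theorem residue_unique (v : Place K F) {f : F} {a b : K}
    (ha : f = algebraMap K F a ∨ 0 < v.ord (f - algebraMap K F a))
    (hb : f = algebraMap K F b ∨ 0 < v.ord (f - algebraMap K F b)) : a = b := by
  have ha' : -(f - algebraMap K F a) = 0 ∨ 0 < v.ord (-(f - algebraMap K F a)) := by
    rcases ha with ha | ha
    · left; rw [ha, sub_self, neg_zero]
    · right; rwa [ord_neg_eq]
  have hb' : f - algebraMap K F b = 0 ∨ 0 < v.ord (f - algebraMap K F b) := by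
    rcases hb with hb | hb
    · left; rw [hb, sub_self]
    · right; exact hb
  have key : (f - algebraMap K F b) + -(f - algebraMap K F a) = algebraMap K F (a - b) := by
    rw [map_sub]; ring
  have h := eq_zero_or_ord_pos_add v hb' ha'
  rw [key, FFPlaces.ord_algebraMap] at h
  rcases h with h | h
  · exact sub_eq_zero.mp ((map_eq_zero (algebraMap K F)).mp h)
  · exact absurd h (lt_irrefl _)

/-- Over an algebraically closed `K`, a place containing `x` is a zero of `x - a` for a unique
`a`. -/
theorem exists_unique_zero [IsAlgClosed K] {x : F} [FiniteDimensional K⟮x⟯ F]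
    [Algebra.IsSeparable K⟮x⟯ F] (hxt : Transcendental K x) (v : Place K F)
    (hx : x ∈ v.toValuationSubring) : ∃! a : K, 0 < v.ord (x - algebraMap K F a) := by
  obtain ⟨a, ha⟩ := exists_residue_of_mem v hx hx
  have ha' : 0 < v.ord (x - algebraMap K F a) := by
    rcases ha with ha | ha
    · exact absurd (sub_eq_zero.mpr ha) (FFPlaces.sub_algebraMap_ne_zero hxt a)
    · exact ha
  exact ⟨a, ha', fun b hb => (residue_unique v (Or.inr ha') (Or.inr hb)).symm⟩

end Charts

end Fermat.Agent.Lib.FFSep
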