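import Mathlib
import Fermat.Prelude.Def_AlgebraicCurve_DivisorClassGroup
import Fermat.Prelude.Def_AlgebraicCurve_Repartitions
import Fermat.Agent.Lib.FFPlaces
import Fermat.Agent.Lib.FFSep.Places

/-!
# Function field toolbox in any characteristic, part 2: the fibrewise norm formula

`F / K` a field extension with `K` algebraically closed, `x : F` transcendental with `F / K(x)`
finite separable.  For every `f ≠ 0` in `F` and every `a : K`,

  `∑_{v zero of x - a} ord_v (N_{F/K(x)} f) = [F : K(x)] * ∑_{v zero of x - a} ord_v f`,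

and the same over the poles of `x`.  The proof goes through Mathlib's relative ideal norm:
when all residue degrees are one, the relative norm of a prime is its contraction (no
perfectness hypothesis on `K(x)`).
-/

set_option autoImplicit false

noncomputable section

namespace Fermat.Agent.Lib.FFSep

open AlgebraicCurve IsDedekindDomain WithZero

section Abstract

variable {A B : Type*} [CommRing A] [IsDedekindDomain A] [CommRing B] [IsDedekindDomain B]
  [Algebra A B] [Module.Finite A B] [Module.IsTorsionFree A B]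

open Ideal

/-- If all primes over a nonzero maximal ideal `p` have inertia degree one, the relative norm of
each of them is `p` (no separability or perfectness hypothesis on the residue fields). -/
theorem relNorm_eq_of_inertiaDeg_eq_one (p : Ideal A) [hp : p.IsMaximal] (hp0 : p ≠ ⊥)
    (hf : ∀ Q ∈ p.primesOver B, Q.inertiaDeg A = 1) (Q : Ideal B) (hQ : Q ∈ p.primesOver B) :
    Ideal.relNorm A Q = p := by
  classical
  have hpp : Prime p := Ideal.prime_of_isPrime hp0 hp.isPrime
  have hp1 : p ≠ 1 := by rw [Ideal.one_eq_top]; exact hp.ne_top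
  have hinj : Function.Injective (fun k : ℕ => p ^ k) :=
    (IsLeftCancelMulZero.mul_left_cancel_of_ne_zero hp0).pow_injective hp1
  -- the exponent of the relative norm
  have key : ∀ Q' ∈ p.primesOver B, ∃ s : ℕ, 1 ≤ s ∧ Ideal.relNorm A Q' = p ^ s := by
    intro Q' hQ'
    have := hQ'.1
    have := hQ'.2
    obtain ⟨s, hs⟩ := Ideal.exists_relNorm_eq_pow_of_isPrime Q' p
    refine ⟨s, ?_, hs⟩
    by_contra h0
    have hs0 : s = 0 := by omega
    rw [hs0, pow_zero, Ideal.one_eq_top] at hs
    have hle := Ideal.relNorm_le_comap A Q'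
    rw [hs, ← Ideal.under_def, ← Ideal.over_def Q' p] at hle
    exact hp.ne_top (top_le_iff.mp hle)
  let t : Ideal B → ℕ := fun Q' => multiplicity p (Ideal.relNorm A Q')
  have ht : ∀ Q' ∈ p.primesOver B, 1 ≤ t Q' ∧ Ideal.relNorm A Q' = p ^ t Q' := by
    intro Q' hQ'
    obtain ⟨s, hs1, hs⟩ := key Q' hQ'
    have : t Q' = s := by
      show multiplicity p (Ideal.relNorm A Q') = s
      rw [hs]
      exact multiplicity_pow_self hp0 hpp.not_isUnit s
    rw [this]
    exact ⟨hs1, hs⟩
  have hfin : (p.primesOver B).Finite := Algebra.QuasiFinite.finite_primesOver _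
  let _ : Fintype (p.primesOver B) := hfin.fintype
  have h1 : p ^ Module.finrank A B =
      p ^ ∑ Q' ∈ (p.primesOver B).toFinset, t Q' * Q'.ramificationIdx A := by
    rw [← Ideal.relNorm_algebraMap B p, Ideal.map_algebraMap_eq_finsetProd_pow hp0, map_prod,
      ← Finset.prod_pow_eq_pow_sum]
    refine Finset.prod_congr rfl fun Q' hQ' => ?_
    rw [map_pow, (ht Q' (by simpa using hQ')).2, pow_mul]
  have h2 : Module.finrank A B = ∑ Q' ∈ (p.primesOver B).toFinset, t Q' * Q'.ramificationIdx A :=
    hinj h1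
  have h3 : ∑ Q' ∈ (p.primesOver B).toFinset, Q'.ramificationIdx A = Module.finrank A B := by
    rw [← Ideal.sum_ramification_inertia_eq_finrank p B, ← Finset.sum_set_coe]
    refine Finset.sum_congr rfl fun q _ => ?_
    rw [hf q.1 q.2, mul_one]
  have h4 : t Q = 1 := by
    by_contra hne
    have hQ1 := (ht Q hQ).1
    have := hQ.1
    have hepos : 0 < Q.ramificationIdx A := Q.ramificationIdx_pos A
    have hlt : ∑ Q' ∈ (p.primesOver B).toFinset, Q'.ramificationIdx A <
        ∑ Q' ∈ (p.primesOver B).toFinset, t Q' * Q'.ramificationIdx A := by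
      refine Finset.sum_lt_sum (fun Q' hQ' => ?_) ⟨Q, by simpa using hQ, ?_⟩
      · exact Nat.le_mul_of_pos_left _ (ht Q' (by simpa using hQ')).1
      · have : 2 ≤ t Q := by omega
        nlinarith
    omega
  rw [(ht Q hQ).2, h4, pow_one]

/-- Multiplicity of a prime in the relative norm of an ideal, when the relative norm of every
nonzero prime is its contraction. -/
theorem multiplicity_relNorm_eq_sum
    (h : ∀ Q : Ideal B, Q.IsPrime → Q ≠ ⊥ → Ideal.relNorm A Q = Q.under A)
    (p : Ideal A) [hp : p.IsPrime] (hp0 : p ≠ ⊥) (s : Finset (Ideal B))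
    (hs : ∀ Q, Q ∈ s ↔ Q ∈ p.primesOver B) (I : Ideal B) (hI : I ≠ ⊥) :
    multiplicity p (Ideal.relNorm A I) = ∑ Q ∈ s, multiplicity Q I := by
  classical
  have hpp : Prime p := Ideal.prime_of_isPrime hp0 hp
  have hQprime : ∀ Q ∈ s, Prime Q := by
    intro Q hQ
    have hQ' := (hs Q).mp hQ
    have := hQ'.1
    have := hQ'.2
    refine Ideal.prime_of_isPrime ?_ hQ'.1
    rintro rfl
    apply hp0
    rw [hQ'.2.over]
    exact Ideal.comap_bot_of_injective _ (FaithfulSMul.algebraMap_injective A B)
  induction I using UniqueFactorizationMonoid.induction_on_prime with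
  | h₁ => exact absurd rfl hI
  | h₂ I hIu =>
    obtain rfl : I = ⊤ := Ideal.isUnit_iff.mp hIu
    rw [Ideal.relNorm_top, ← Ideal.one_eq_top,
      multiplicity_of_isUnit_right hpp.not_isUnit isUnit_one]
    symm
    refine Finset.sum_eq_zero fun Q hQ => ?_
    exact multiplicity_of_isUnit_right (hQprime Q hQ).not_isUnit (Ideal.isUnit_iff.mpr rfl)
  | h₃ J P hJ hP IH =>
    have hPprime : P.IsPrime := Ideal.isPrime_of_prime hP
    have hP0 : P ≠ ⊥ := hP.ne_zero
    have hPmax : P.IsMaximal := hPprime.isMaximal hP0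
    have hnP : Ideal.relNorm A P = P.under A := h P hPprime hP0
    have hu0 : P.under A ≠ ⊥ := by rw [← hnP]; exact (Ideal.relNorm_eq_bot_iff).not.mpr hP0
    have hupr : (P.under A).IsPrime := inferInstance
    have humax : (P.under A).IsMaximal := hupr.isMaximal hu0
    rw [map_mul, multiplicity_mul hpp (FiniteMultiplicity.of_prime_left hpp (by
        rw [← map_mul]; exact (Ideal.relNorm_eq_bot_iff).not.mpr (mul_ne_zero hP0 hJ))),
      IH hJ, Finset.sum_congr rfl (fun Q hQ => multiplicity_mul (hQprime Q hQ)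
        (FiniteMultiplicity.of_prime_left (hQprime Q hQ) (mul_ne_zero hP0 hJ))),
      Finset.sum_add_distrib, hnP]
    congr 1
    by_cases hPp : P.under A = p
    · have hPs : P ∈ s := (hs P).mpr ⟨hPprime, ⟨hPp.symm⟩⟩
      rw [hPp, multiplicity_self, Finset.sum_eq_single P, multiplicity_self]
      · intro Q hQ hne
        rw [multiplicity_eq_zero, Ideal.dvd_iff_le]
        intro hle
        exact hne (hPmax.eq_of_le ((hs Q).mp hQ).1.ne_top hle).symm
      · intro h'
        exact absurd hPs h'
    · rw [multiplicity_eq_zero.mpr, eq_comm]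
      · refine Finset.sum_eq_zero fun Q hQ => ?_
        rw [multiplicity_eq_zero, Ideal.dvd_iff_le]
        intro hle
        have hQ' := (hs Q).mp hQ
        have hQP : P = Q := hPmax.eq_of_le hQ'.1.ne_top hle
        apply hPp
        rw [hQP]
        exact (hQ'.2.over).symm
      · rw [Ideal.dvd_iff_le]
        intro hle
        exact hPp (humax.eq_of_le hp.ne_top hle)

/-- The fibrewise norm formula for ideals: the total multiplicity over `p` of (the extension of)
the norm of `b` is `[B : A]` times the total multiplicity of `b`. -/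
theorem sum_multiplicity_algebraMap_intNorm
    (h : ∀ Q : Ideal B, Q.IsPrime → Q ≠ ⊥ → Ideal.relNorm A Q = Q.under A)
    (p : Ideal A) [hp : p.IsPrime] (hp0 : p ≠ ⊥) (s : Finset (Ideal B))
    (hs : ∀ Q, Q ∈ s ↔ Q ∈ p.primesOver B) (b : B) (hb : b ≠ 0) :
    ∑ Q ∈ s, multiplicity Q (Ideal.span {algebraMap A B (Algebra.intNorm A B b)}) =
      Module.finrank A B * ∑ Q ∈ s, multiplicity Q (Ideal.span {b}) := by
  have hpp : Prime p := Ideal.prime_of_isPrime hp0 hp
  have hr : Algebra.intNorm A B b ≠ 0 := Algebra.intNorm_ne_zero.mpr hb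
  have hr' : algebraMap A B (Algebra.intNorm A B b) ≠ 0 := fun h0 =>
    hr ((FaithfulSMul.algebraMap_eq_zero_iff A B).mp h0)
  have hspan : Ideal.span {algebraMap A B (Algebra.intNorm A B b)} =
      (Ideal.span {Algebra.intNorm A B b}).map (algebraMap A B) := by
    rw [Ideal.map_span, Set.image_singleton]
  rw [← multiplicity_relNorm_eq_sum h p hp0 s hs (Ideal.span {b})
      (by rwa [Ne, Ideal.span_singleton_eq_bot]),
    ← multiplicity_relNorm_eq_sum h p hp0 s hs _ (by rwa [Ne, Ideal.span_singleton_eq_bot]),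
    hspan, Ideal.relNorm_algebraMap, Ideal.relNorm_singleton]
  exact FiniteMultiplicity.multiplicity_pow hpp
    (FiniteMultiplicity.of_prime_left hpp (by
      rw [Ne, Ideal.zero_eq_bot, Ideal.span_singleton_eq_bot]
      exact hr))

end Abstract

section Concrete

open IntermediateField IntermediateField.algebraAdjoinAdjoin

variable {K F : Type*} [Field K] [Field F] [Algebra K F] {x : F}
variable [FiniteDimensional K⟮x⟯ F] [Algebra.IsSeparable K⟮x⟯ F]

/-- A nonzero prime of the integral closure of `K[x]` contains `x - a` for some `a`. -/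
theorem exists_xSubInt_mem [IsAlgClosed K] (Q : Ideal (FFPlaces.intRing K x)) (hQ : Q.IsPrime)
    (hQ0 : Q ≠ ⊥) : ∃ a : K, FFPlaces.xSubInt K x a ∈ Q := by
  obtain ⟨a, ha⟩ := FFPlaces.exists_sub_mem_asIdeal (K := K)
    (⟨Q, hQ, hQ0⟩ : HeightOneSpectrum (FFPlaces.intRing K x)) (FFPlaces.xInt (K := K) (x := x))
  exact ⟨a, ha⟩

/-- The relative norm of a nonzero prime of the integral closure of `K[x]` is its contraction. -/
theorem relNorm_eq_under [IsAlgClosed K] (hxt : Transcendental K x)
    (Q : Ideal (FFPlaces.intRing K x)) (hQ : Q.IsPrime) (hQ0 : Q ≠ ⊥) :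
    Ideal.relNorm (FFPlaces.polyRing K x) Q = Q.under (FFPlaces.polyRing K x) := by
  obtain ⟨a, ha⟩ := exists_xSubInt_mem Q hQ hQ0
  have hlo : Q.LiesOver (Ideal.span {FFPlaces.xSub K x a}) :=
    (FFPlaces.liesOver_iff_mem hxt a Q).mpr ha
  have hmax := FFPlaces.isMaximal_span_xSub hxt a
  have hp0 : Ideal.span {FFPlaces.xSub K x a} ≠ ⊥ := by
    rw [Ne, Ideal.span_singleton_eq_bot]
    exact FFPlaces.xSub_ne_zero hxt a
  rw [← hlo.over]
  exact relNorm_eq_of_inertiaDeg_eq_one _ hp0 (fun Q' hQ' => by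
    have := hQ'.1
    have := hQ'.2
    exact inertiaDeg_eq_one hxt a Q') Q ⟨hQ, hlo⟩

/-- The order of an integral element at the place of a height one prime is the multiplicity of
the prime in the principal ideal. -/
theorem ord_coe_eq_multiplicity (w : HeightOneSpectrum (FFPlaces.intRing K x))
    (b : FFPlaces.intRing K x) (hb : b ≠ 0) :
    (Place.ofHeightOneSpectrum (K := K) w).ord (b : F) =
      (multiplicity w.asIdeal (Ideal.span {b}) : ℤ) := by
  rw [FFPlaces.ord_ofHeightOneSpectrum]
  have h1 : w.valuation F (b : F) = w.intValuation b := by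
    rw [← w.valuation_of_algebraMap (K := F)]
    rfl
  rw [h1, w.intValuation_eq_exp_neg_multiplicity hb, log_exp, neg_neg]

/-- The norm to `K(x)` of an integral element, seen in `F`, is the integral norm. -/
theorem algebraMap_norm_coe (b : FFPlaces.intRing K x) :
    algebraMap K⟮x⟯ F (Algebra.norm K⟮x⟯ (b : F)) =
      ((algebraMap (FFPlaces.polyRing K x) (FFPlaces.intRing K x)
        (Algebra.intNorm (FFPlaces.polyRing K x) (FFPlaces.intRing K x) b) :
          FFPlaces.intRing K x) : F) := by
  have h := Algebra.algebraMap_intNorm (A := FFPlaces.polyRing K x) (K := K⟮x⟯) (L := F)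
    (B := FFPlaces.intRing K x) b
  have h2 : algebraMap (FFPlaces.intRing K x) F b = (b : F) := rfl
  rw [h2] at h
  rw [← h]
  rfl

/-- **Fibrewise norm formula**, integral elements. -/
theorem sum_ord_norm_coe [IsAlgClosed K] (hxt : Transcendental K x) (a : K)
    (b : FFPlaces.intRing K x) (hb : b ≠ 0) :
    ∑ᶠ v ∈ {v : Place K F | 0 < v.ord (x - algebraMap K F a)},
        v.ord (algebraMap K⟮x⟯ F (Algebra.norm K⟮x⟯ (b : F))) =
      (Module.finrank K⟮x⟯ F : ℤ) *
        ∑ᶠ v ∈ {v : Place K F | 0 < v.ord (x - algebraMap K F a)}, v.ord (b : F) := by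
  classical
  have hmax := FFPlaces.isMaximal_span_xSub hxt a
  have hp0 : Ideal.span {FFPlaces.xSub K x a} ≠ ⊥ := by
    rw [Ne, Ideal.span_singleton_eq_bot]
    exact FFPlaces.xSub_ne_zero hxt a
  have hfin : ((Ideal.span {FFPlaces.xSub K x a}).primesOver (FFPlaces.intRing K x)).Finite :=
    Algebra.QuasiFinite.finite_primesOver _
  let _ : Fintype ((Ideal.span {FFPlaces.xSub K x a}).primesOver (FFPlaces.intRing K x)) :=
    hfin.fintype
  have hr : algebraMap (FFPlaces.polyRing K x) (FFPlaces.intRing K x)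
      (Algebra.intNorm (FFPlaces.polyRing K x) (FFPlaces.intRing K x) b) ≠ 0 := fun h0 =>
    (Algebra.intNorm_ne_zero.mpr hb)
      ((FaithfulSMul.algebraMap_eq_zero_iff (FFPlaces.polyRing K x) (FFPlaces.intRing K x)).mp h0)
  have key := sum_multiplicity_algebraMap_intNorm (A := FFPlaces.polyRing K x)
    (B := FFPlaces.intRing K x) (fun Q hQ hQ0 => relNorm_eq_under hxt Q hQ hQ0)
    (Ideal.span {FFPlaces.xSub K x a}) hp0
    ((Ideal.span {FFPlaces.xSub K x a}).primesOver (FFPlaces.intRing K x)).toFinset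
    (fun Q => Set.mem_toFinset) b hb
  rw [algebraMap_norm_coe, ← range_placeOver hxt a, finsum_mem_range (placeOver_injective hxt a),
    finsum_mem_range (placeOver_injective hxt a), finsum_eq_sum_of_fintype,
    finsum_eq_sum_of_fintype, ← finrank_intRing (K := K) (x := x)]
  rw [← Finset.sum_set_coe, ← Finset.sum_set_coe] at key
  have h1 : ∀ (c : FFPlaces.intRing K x), c ≠ 0 →
      ∀ q : (Ideal.span {FFPlaces.xSub K x a}).primesOver (FFPlaces.intRing K x),
      (placeOver hxt a q).ord (c : F) = (multiplicity q.1 (Ideal.span {c}) : ℤ) :=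
    fun c hc q => ord_coe_eq_multiplicity _ c hc
  rw [Finset.sum_congr rfl (fun q _ => h1 _ hr q), Finset.sum_congr rfl (fun q _ => h1 _ hb q)]
  exact_mod_cast key

omit [FiniteDimensional K⟮x⟯ F] [Algebra.IsSeparable K⟮x⟯ F] in
/-- `ord` of a quotient. -/
theorem ord_div (v : Place K F) {f g : F} (hf : f ≠ 0) (hg : g ≠ 0) :
    v.ord (f / g) = v.ord f - v.ord g := by
  rw [div_eq_mul_inv, v.ord_mul hf (inv_ne_zero hg), v.ord_inv, sub_eq_add_neg]

/-- **Fibrewise norm formula** over the point `x = a`: for every `f ≠ 0`, the orders of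
`N_{F/K(x)} f` at the zeros of `x - a` sum to `[F : K(x)]` times the sum of the orders of `f`. -/
theorem sum_ord_norm [IsAlgClosed K] (hxt : Transcendental K x) (a : K) {f : F} (hf : f ≠ 0) :
    ∑ᶠ v ∈ {v : Place K F | 0 < v.ord (x - algebraMap K F a)},
        v.ord (algebraMap K⟮x⟯ F (Algebra.norm K⟮x⟯ f)) =
      (Module.finrank K⟮x⟯ F : ℤ) *
        ∑ᶠ v ∈ {v : Place K F | 0 < v.ord (x - algebraMap K F a)}, v.ord f := by
  obtain ⟨b, c, hc, rfl⟩ := IsFractionRing.div_surjective (A := FFPlaces.intRing K x) f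
  have hc0 : c ≠ 0 := nonZeroDivisors.ne_zero hc
  have hb0 : b ≠ 0 := by
    rintro rfl
    simp at hf
  have e1 : ∀ d : FFPlaces.intRing K x, algebraMap (FFPlaces.intRing K x) F d = (d : F) :=
    fun _ => rfl
  have hF : ∀ d : FFPlaces.intRing K x, d ≠ 0 → (d : F) ≠ 0 := fun d hd h0 =>
    hd (Subtype.ext h0)
  have hN : ∀ d : FFPlaces.intRing K x, d ≠ 0 →
      algebraMap K⟮x⟯ F (Algebra.norm K⟮x⟯ (d : F)) ≠ 0 := by
    intro d hd
    rw [Ne, map_eq_zero, Algebra.norm_eq_zero_iff]
    exact hF d hd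
  have hfin := finite_zeros (F := F) hxt a
  have hdiv : Algebra.norm K⟮x⟯ ((b : F) / (c : F)) =
      Algebra.norm K⟮x⟯ (b : F) / Algebra.norm K⟮x⟯ (c : F) := by
    rw [eq_div_iff (by rw [Ne, Algebra.norm_eq_zero_iff]; exact hF c hc0), ← map_mul,
      div_mul_cancel₀ _ (hF c hc0)]
  rw [e1, e1, hdiv, map_div₀,
    finsum_mem_congr rfl (fun v _ => ord_div v (hN b hb0) (hN c hc0)),
    finsum_mem_congr rfl (fun v _ => ord_div v (hF b hb0) (hF c hc0)),
    finsum_mem_sub_distrib _ _ hfin, finsum_mem_sub_distrib _ _ hfin,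
    sum_ord_norm_coe hxt a b hb0, sum_ord_norm_coe hxt a c hc0, mul_sub]

omit [FiniteDimensional K⟮x⟯ F] [Algebra.IsSeparable K⟮x⟯ F] in
/-- The norm to an intermediate field, seen in `F`, only depends on the field. -/
theorem algebraMap_norm_of_eq {E E' : IntermediateField K F} (h : E = E') (f : F) :
    algebraMap E F (Algebra.norm E f) = algebraMap E' F (Algebra.norm E' f) := by
  subst h
  rfl

/-- **Fibrewise norm formula** over the point `x = ∞`. -/
theorem sum_ord_norm_poles [IsAlgClosed K] (hxt : Transcendental K x) {f : F} (hf : f ≠ 0) :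
    ∑ᶠ v ∈ {v : Place K F | v.ord x < 0},
        v.ord (algebraMap K⟮x⟯ F (Algebra.norm K⟮x⟯ f)) =
      (Module.finrank K⟮x⟯ F : ℤ) * ∑ᶠ v ∈ {v : Place K F | v.ord x < 0}, v.ord f := by
  have := finiteDimensional_inv (K := K) x
  have := isSeparable_inv (K := K) x
  have h := sum_ord_norm (FFPlaces.transcendental_inv hxt) 0 hf
  rw [← FFPlaces.poles_eq, FFPlaces.finrank_of_eq (FFPlaces.adjoin_inv (K := K) x),
    algebraMap_norm_of_eq (FFPlaces.adjoin_inv (K := K) x)] at h
  exact h

end Concrete

end Fermat.Agent.Lib.FFSep
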