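import Mathlib
import Fermat.Agent.Lib.FFSep.Norm

/-!
# Function field toolbox, part 6: separating functions and a criterion "every place is analytic"

`F / K` a function field (`K` any field, `x : F` transcendental, `F / K(x)` finite separable).

* `exists_separating` : for a place `P` over `x = a` there is a nonzero `f`, integral over
  `K[x]`, with a zero at `P`, no zero at the other places over `a`, and whose norm
  `N_{F/K(x)} f` has a zero at *every* place over `a`;
* `exists_separating_pole` : the same for a pole `P` of `x`;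
* `mem_of_forall_norm`, `mem_of_forall_norm_pole` : the resulting criterion.  If a set `𝒜` of
  places has the property that every such `f` has a zero at some member of `𝒜` over `a`
  (analytically: `N f` vanishes at a point `τ₀` over `a`, `N f` is the product of the translates
  of `f`, so some translate of `τ₀` is a zero of `f`), then every place over `a` lies in `𝒜`.
-/

set_option autoImplicit false

noncomputable section

namespace Fermat.Agent.Lib.FFSep

open AlgebraicCurve IntermediateField IsDedekindDomain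

section Separating

variable {K F : Type*} [Field K] [Field F] [Algebra K F] {x : F}
variable [FiniteDimensional K⟮x⟯ F] [Algebra.IsSeparable K⟮x⟯ F]

/-- An integral element has nonnegative order at the place of a height one prime. -/
theorem ord_coe_nonneg (w : HeightOneSpectrum (FFPlaces.intRing K x))
    (b : FFPlaces.intRing K x) :
    0 ≤ (Place.ofHeightOneSpectrum (K := K) w).ord (b : F) := by
  rcases eq_or_ne b 0 with rfl | hb
  · simp
  · rw [ord_coe_eq_multiplicity w b hb]
    exact Int.natCast_nonneg _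

/-- An integral element has positive order at the place of a height one prime iff it lies in
the prime. -/
theorem ord_coe_pos_iff (w : HeightOneSpectrum (FFPlaces.intRing K x))
    (b : FFPlaces.intRing K x) (hb : b ≠ 0) :
    0 < (Place.ofHeightOneSpectrum (K := K) w).ord (b : F) ↔ b ∈ w.asIdeal := by
  rw [FFPlaces.ord_ofHeightOneSpectrum]
  have h1 : w.valuation F (b : F) = w.intValuation b := by
    rw [← w.valuation_of_algebraMap (K := F)]
    rfl
  have hne : w.intValuation b ≠ 0 := w.intValuation_ne_zero _ hb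
  rw [h1, ← w.intValuation_lt_one_iff_mem, neg_pos, ← WithZero.log_lt_log hne one_ne_zero,
    WithZero.log_one]

/-- **Separating function** at a place `P` over `x = a`: a nonzero `f`, integral over `K[x]`,
with a zero at `P`, order zero at the other places over `a`, and such that the norm
`N_{F/K(x)} f` has a zero at every place over `a`. -/
theorem exists_separating (hxt : Transcendental K x) (a : K) (P : Place K F)
    (hP : 0 < P.ord (x - algebraMap K F a)) :
    ∃ f : F, f ≠ 0 ∧ 0 < P.ord f ∧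
      (∀ v : Place K F, x ∈ v.toValuationSubring → 0 ≤ v.ord f) ∧
      (∀ v : Place K F, 0 < v.ord (x - algebraMap K F a) → v ≠ P → v.ord f = 0) ∧
      (∀ v : Place K F, 0 < v.ord (x - algebraMap K F a) →
        0 < v.ord (algebraMap K⟮x⟯ F (Algebra.norm K⟮x⟯ f))) := by
  classical
  have hrange := range_placeOver (F := F) hxt a
  obtain ⟨q, rfl⟩ : P ∈ Set.range (placeOver (F := F) hxt a) := by
    rw [hrange]
    exact hP
  have hfin : ((Ideal.span {FFPlaces.xSub K x a}).primesOver (FFPlaces.intRing K x)).Finite :=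
    Algebra.QuasiFinite.finite_primesOver _
  set s : Finset (Ideal (FFPlaces.intRing K x)) := hfin.toFinset.erase q.1 with hs
  have hqprime : q.1.IsPrime := q.2.1
  have hq0 : q.1 ≠ ⊥ := FFPlaces.ne_bot_of_xSubInt_mem hxt a q.1
    ((FFPlaces.liesOver_iff_mem hxt a q.1).mp q.2.2)
  have hqmax : q.1.IsMaximal := hqprime.isMaximal hq0
  -- prime avoidance
  have havoid : ¬ ((q.1 : Set (FFPlaces.intRing K x)) ⊆
      ⋃ i ∈ (↑s : Set (Ideal (FFPlaces.intRing K x))),
        ((id i : Ideal (FFPlaces.intRing K x)) : Set (FFPlaces.intRing K x))) := by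
    intro hsub
    obtain ⟨Q', hQ's, hle⟩ := (Ideal.subset_union_prime (f := id) q.1 q.1 (fun i hi _ _ => by
      have : i ∈ hfin.toFinset := Finset.mem_of_mem_erase hi
      rw [Set.Finite.mem_toFinset] at this
      exact this.1)).mp hsub
    have hQ'mem : Q' ∈ hfin.toFinset := Finset.mem_of_mem_erase hQ's
    rw [Set.Finite.mem_toFinset] at hQ'mem
    have hQ'ne : Q' ≠ q.1 := Finset.ne_of_mem_erase hQ's
    have := hQ'mem.1
    exact hQ'ne (hqmax.eq_of_le this.ne_top hle).symm
  obtain ⟨f₀, hf₀q, hf₀s⟩ := Set.not_subset.mp havoid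
  -- make it nonzero
  obtain ⟨f₁, hf₁0, hf₁q, hf₁s⟩ : ∃ f₁ : FFPlaces.intRing K x, f₁ ≠ 0 ∧ f₁ ∈ q.1 ∧
      ∀ Q' ∈ s, f₁ ∉ Q' := by
    by_cases h0 : f₀ = 0
    · refine ⟨FFPlaces.xSubInt K x a, FFPlaces.xSubInt_ne_zero hxt a,
        (FFPlaces.liesOver_iff_mem hxt a q.1).mp q.2.2, fun Q' hQ' => ?_⟩
      exfalso
      apply hf₀s
      rw [h0]
      simp only [Set.mem_iUnion]
      exact ⟨Q', hQ', Q'.zero_mem⟩
    · refine ⟨f₀, h0, hf₀q, fun Q' hQ' hmem => hf₀s ?_⟩
      simp only [Set.mem_iUnion]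
      exact ⟨Q', hQ', hmem⟩
  have hf₁F : (f₁ : F) ≠ 0 := fun h => hf₁0 (Subtype.ext h)
  -- the place of a prime over `a`
  have hplace : ∀ q' : (Ideal.span {FFPlaces.xSub K x a}).primesOver (FFPlaces.intRing K x),
      (0 < (placeOver hxt a q').ord (f₁ : F) ↔ f₁ ∈ q'.1) := fun q' =>
    ord_coe_pos_iff _ f₁ hf₁0
  refine ⟨(f₁ : F), hf₁F, (hplace q).mpr hf₁q, ?_, ?_, ?_⟩
  · intro v hv
    obtain ⟨w, rfl⟩ := exists_heightOneSpectrum v hv
    exact ord_coe_nonneg w f₁
  · intro v hv hvP
    obtain ⟨q', rfl⟩ : v ∈ Set.range (placeOver (F := F) hxt a) := by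
      rw [hrange]
      exact hv
    have hq'ne : q'.1 ≠ q.1 := fun h => hvP (congrArg _ (Subtype.ext h))
    have hq's : q'.1 ∈ s := by
      rw [hs, Finset.mem_erase, Set.Finite.mem_toFinset]
      exact ⟨hq'ne, q'.2⟩
    have h1 : ¬ 0 < (placeOver hxt a q').ord (f₁ : F) := fun h =>
      hf₁s _ hq's ((hplace q').mp h)
    have h2 : 0 ≤ (placeOver hxt a q').ord (f₁ : F) := ord_coe_nonneg _ f₁
    omega
  · intro v hv
    -- the norm is divisible by `x - a` in `K[x]`
    set Nf := Algebra.intNorm (FFPlaces.polyRing K x) (FFPlaces.intRing K x) f₁ with hNf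
    have hdvd : f₁ ∣ algebraMap (FFPlaces.polyRing K x) (FFPlaces.intRing K x) Nf :=
      Algebra.dvd_algebraMap_intNorm_self _ _ f₁
    have hNq : algebraMap (FFPlaces.polyRing K x) (FFPlaces.intRing K x) Nf ∈ q.1 :=
      Ideal.mem_of_dvd _ hdvd hf₁q
    have hlo : q.1.LiesOver (Ideal.span {FFPlaces.xSub K x a}) := q.2.2
    have hNspan : Nf ∈ Ideal.span {FFPlaces.xSub K x a} := by
      rw [hlo.over]
      exact hNq
    obtain ⟨r, hr⟩ := Ideal.mem_span_singleton'.mp hNspan
    have hN0 : Nf ≠ 0 := Algebra.intNorm_ne_zero.mpr hf₁0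
    have hr0 : r ≠ 0 := by
      rintro rfl
      rw [zero_mul] at hr
      exact hN0 hr.symm
    have hrF : (r : F) ≠ 0 := fun h => hr0 (Subtype.ext h)
    have hxa : x - algebraMap K F a ≠ 0 := FFPlaces.sub_algebraMap_ne_zero hxt a
    have hcoe : algebraMap K⟮x⟯ F (Algebra.norm K⟮x⟯ (f₁ : F)) =
        (r : F) * (x - algebraMap K F a) := by
      rw [algebraMap_norm_coe, ← hNf, ← hr]
      rfl
    rw [hcoe, v.ord_mul hrF hxa]
    have hxmem : x ∈ v.toValuationSubring := by
      have hmem : x - algebraMap K F a ∈ v.toValuationSubring :=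
        (FFPlaces.mem_iff_ord_nonneg v hxa).mpr hv.le
      have := v.toValuationSubring.add_mem _ _ hmem (v.algebraMap_mem' a)
      simpa using this
    have hr_nonneg : 0 ≤ v.ord (r : F) :=
      (FFPlaces.mem_iff_ord_nonneg v hrF).mp (FFPlaces.polyRing_mem v hxmem r)
    omega

/-- **Criterion** over `x = a`: a set `𝒜` of places which meets the zeros over `a` of every
separating function contains every place over `a`. -/
theorem mem_of_forall_norm (hxt : Transcendental K x) (a : K) (𝒜 : Set (Place K F))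
    (h : ∀ f : F, f ≠ 0 → (∀ v : Place K F, x ∈ v.toValuationSubring → 0 ≤ v.ord f) →
      (∀ v : Place K F, 0 < v.ord (x - algebraMap K F a) →
        0 < v.ord (algebraMap K⟮x⟯ F (Algebra.norm K⟮x⟯ f))) →
      ∃ Q ∈ 𝒜, 0 < Q.ord (x - algebraMap K F a) ∧ 0 < Q.ord f)
    (P : Place K F) (hP : 0 < P.ord (x - algebraMap K F a)) : P ∈ 𝒜 := by
  obtain ⟨f, hf0, hfP, hfint, hfother, hfN⟩ := exists_separating hxt a P hP
  obtain ⟨Q, hQA, hQa, hQf⟩ := h f hf0 hfint hfN
  by_cases hQP : Q = P
  · rwa [← hQP]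
  · have := hfother Q hQa hQP
    omega

/-- **Separating function** at a pole `P` of `x`: a nonzero `f`, integral over `K[1/x]`, with a
zero at `P`, order zero at the other poles of `x`, and such that the norm `N_{F/K(x)} f` has a
zero at every pole of `x`. -/
theorem exists_separating_pole (hxt : Transcendental K x) (P : Place K F) (hP : P.ord x < 0) :
    ∃ f : F, f ≠ 0 ∧ 0 < P.ord f ∧
      (∀ v : Place K F, x⁻¹ ∈ v.toValuationSubring → 0 ≤ v.ord f) ∧
      (∀ v : Place K F, v.ord x < 0 → v ≠ P → v.ord f = 0) ∧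
      (∀ v : Place K F, v.ord x < 0 →
        0 < v.ord (algebraMap K⟮x⟯ F (Algebra.norm K⟮x⟯ f))) := by
  have := finiteDimensional_inv (K := K) x
  have := isSeparable_inv (K := K) x
  have hiff : ∀ v : Place K F, v.ord x < 0 ↔ 0 < v.ord (x⁻¹ - algebraMap K F 0) := fun v => by
    have := congrArg (fun s : Set (Place K F) => v ∈ s) (FFPlaces.poles_eq (K := K) x)
    simpa using this
  obtain ⟨f, hf0, hfP, hfint, hfother, hfN⟩ :=
    exists_separating (FFPlaces.transcendental_inv hxt) 0 P ((hiff P).mp hP)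
  refine ⟨f, hf0, hfP, hfint, fun v hv hvP => hfother v ((hiff v).mp hv) hvP, fun v hv => ?_⟩
  have h1 := hfN v ((hiff v).mp hv)
  rwa [algebraMap_norm_of_eq (FFPlaces.adjoin_inv (K := K) x)] at h1

/-- **Criterion** over `x = ∞`. -/
theorem mem_of_forall_norm_pole (hxt : Transcendental K x) (𝒜 : Set (Place K F))
    (h : ∀ f : F, f ≠ 0 → (∀ v : Place K F, x⁻¹ ∈ v.toValuationSubring → 0 ≤ v.ord f) →
      (∀ v : Place K F, v.ord x < 0 →
        0 < v.ord (algebraMap K⟮x⟯ F (Algebra.norm K⟮x⟯ f))) →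
      ∃ Q ∈ 𝒜, Q.ord x < 0 ∧ 0 < Q.ord f)
    (P : Place K F) (hP : P.ord x < 0) : P ∈ 𝒜 := by
  obtain ⟨f, hf0, hfP, hfint, hfother, hfN⟩ := exists_separating_pole hxt P hP
  obtain ⟨Q, hQA, hQa, hQf⟩ := h f hf0 hfint hfN
  by_cases hQP : Q = P
  · rwa [← hQP]
  · have := hfother Q hQa hQP
    omega

/-- **Criterion** over `x = a`, norm-free form: if every nonzero function without poles at the
finite places which vanishes at some place over `a` vanishes at a member of `𝒜` over `a`, then
every place over `a` lies in `𝒜`. -/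
theorem mem_of_forall_zero (hxt : Transcendental K x) (a : K) (𝒜 : Set (Place K F))
    (h : ∀ (P : Place K F) (f : F), 0 < P.ord (x - algebraMap K F a) → f ≠ 0 → 0 < P.ord f →
      (∀ v : Place K F, x ∈ v.toValuationSubring → 0 ≤ v.ord f) →
      ∃ Q ∈ 𝒜, 0 < Q.ord (x - algebraMap K F a) ∧ 0 < Q.ord f)
    (P : Place K F) (hP : 0 < P.ord (x - algebraMap K F a)) : P ∈ 𝒜 := by
  obtain ⟨f, hf0, hfP, hfint, hfother, -⟩ := exists_separating hxt a P hP
  obtain ⟨Q, hQA, hQa, hQf⟩ := h P f hP hf0 hfP hfint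
  by_cases hQP : Q = P
  · rwa [← hQP]
  · have := hfother Q hQa hQP
    omega

/-- **Criterion** over `x = ∞`, norm-free form. -/
theorem mem_of_forall_zero_pole (hxt : Transcendental K x) (𝒜 : Set (Place K F))
    (h : ∀ (P : Place K F) (f : F), P.ord x < 0 → f ≠ 0 → 0 < P.ord f →
      (∀ v : Place K F, x⁻¹ ∈ v.toValuationSubring → 0 ≤ v.ord f) →
      ∃ Q ∈ 𝒜, Q.ord x < 0 ∧ 0 < Q.ord f)
    (P : Place K F) (hP : P.ord x < 0) : P ∈ 𝒜 := by
  obtain ⟨f, hf0, hfP, hfint, hfother, -⟩ := exists_separating_pole hxt P hP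
  obtain ⟨Q, hQA, hQa, hQf⟩ := h P f hP hf0 hfP hfint
  by_cases hQP : Q = P
  · rwa [← hQP]
  · have := hfother Q hQa hQP
    omega

end Separating

end Fermat.Agent.Lib.FFSep
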