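import Mathlib
import Fermat.Prelude.Def_AlgebraicCurve_DivisorClassGroup
import Fermat.Prelude.Def_AlgebraicCurve_Repartitions
import Fermat.Agent.Lib.FFPlaces
import Fermat.Agent.Lib.FFSep.Places
import Fermat.Agent.Lib.FFSep.Norm

/-!
# Function field toolbox in any characteristic, part 3: principal divisors have degree zero

`F / K` a field extension, `x : F` transcendental with `F / K(x)` finite separable.

* `finite_support_ord` : every `f` has finitely many zeros and poles (no hypothesis on `K`);
* `sum_ord_eq_zero` : for `K` algebraically closed and every `f ≠ 0` (separating or not),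
  `∑_v ord_v f = 0`;
* `divOf`, `degree_divOf`, `hasPrincipalDivisors` : the Prelude class `HasPrincipalDivisors K F`.

The proof of `sum_ord_eq_zero` is by the fibrewise norm formula of `Lib/FFSep/Norm`: the orders of
`f` and of `N_{F/K(x)} f` are compared fibre by fibre over the points of the `x`-line, and a
nonzero element of `K(x)` is a constant times a quotient of products of `x - a`.
-/

set_option autoImplicit false

noncomputable section

namespace Fermat.Agent.Lib.FFSep

open AlgebraicCurve IsDedekindDomain WithZero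

section Generic

/-- Fibrewise comparison of two finitely supported integer functions along a cover by pairwise
disjoint finite sets. -/
theorem finsum_eq_mul_finsum_of_cover {α ι : Type*} (fib : ι → Set α)
    (hdisj : Pairwise (Function.onFun Disjoint fib)) (hfin : ∀ t, (fib t).Finite)
    (hcover : ∀ v, ∃ t, v ∈ fib t) {h₁ h₂ : α → ℤ} (hf₁ : (Function.support h₁).Finite)
    (hf₂ : (Function.support h₂).Finite) (n : ℤ)
    (hfib : ∀ t, ∑ᶠ v ∈ fib t, h₁ v = n * ∑ᶠ v ∈ fib t, h₂ v) :
    ∑ᶠ v, h₁ v = n * ∑ᶠ v, h₂ v := by
  classical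
  choose τ hτ using hcover
  have hTfin : (Function.support h₁ ∪ Function.support h₂).Finite := hf₁.union hf₂
  have hUfin : (τ '' (Function.support h₁ ∪ Function.support h₂)).Finite := hTfin.image τ
  have hsub : Function.support h₁ ∪ Function.support h₂ ⊆
      ⋃ t ∈ τ '' (Function.support h₁ ∪ Function.support h₂), fib t := by
    intro v hv
    exact Set.mem_biUnion (Set.mem_image_of_mem τ hv) (hτ v)
  have key : ∀ h : α → ℤ, Function.support h ⊆ Function.support h₁ ∪ Function.support h₂ →
      ∑ᶠ v, h v = ∑ᶠ t ∈ τ '' (Function.support h₁ ∪ Function.support h₂),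
        ∑ᶠ v ∈ fib t, h v := by
    intro h hh
    rw [← finsum_mem_biUnion (fun i _ j _ hij => hdisj hij) hUfin (fun t _ => hfin t),
      ← finsum_mem_univ]
    apply finsum_mem_inter_support_eq
    ext v
    simp only [Set.mem_inter_iff, Set.mem_univ, true_and, iff_and_self]
    intro hv
    exact hsub (hh hv)
  rw [key h₁ Set.subset_union_left, key h₂ Set.subset_union_right, mul_finsum_mem]
  exact finsum_mem_congr rfl (fun t _ => hfib t)

/-- A finitely supported integer function sums to its positive part plus its negative part. -/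
theorem finsum_eq_pos_add_neg {α : Type*} {h : α → ℤ} (hfin : (Function.support h).Finite) :
    ∑ᶠ v, h v = ∑ᶠ v ∈ {v | 0 < h v}, h v + ∑ᶠ v ∈ {v | h v < 0}, h v := by
  have h1 : ({v | 0 < h v} ∪ {v | h v < 0}) = Function.support h := by
    ext v
    simp only [Set.mem_union, Set.mem_ofPred_eq, Function.mem_support]
    omega
  have hd : Disjoint {v | 0 < h v} {v | h v < 0} := by
    rw [Set.disjoint_left]
    intro v hv hv'
    simp only [Set.mem_ofPred_eq] at hv hv'
    omega
  rw [← finsum_mem_union hd (hfin.subset (by rw [← h1]; exact Set.subset_union_left))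
    (hfin.subset (by rw [← h1]; exact Set.subset_union_right)), h1, finsum_mem_support]

end Generic

section Support

open IntermediateField IntermediateField.algebraAdjoinAdjoin

variable {K F : Type*} [Field K] [Field F] [Algebra K F] {x : F}
variable [FiniteDimensional K⟮x⟯ F] [Algebra.IsSeparable K⟮x⟯ F]

/-- A place not containing `x` is a pole of `x`. -/
theorem ord_neg_of_notMem (v : Place K F) {f : F} (hf : f ∉ v.toValuationSubring) :
    v.ord f < 0 := by
  have hf0 : f ≠ 0 := by
    rintro rfl
    exact hf (zero_mem _)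
  by_contra hneg
  exact hf ((FFPlaces.mem_iff_ord_nonneg v hf0).mpr (not_lt.mp hneg))

/-- An integral element has finitely many zeros and poles. -/
theorem finite_support_ord_coe (hxt : Transcendental K x) (b : FFPlaces.intRing K x)
    (hb : b ≠ 0) : (Function.support fun v : Place K F => v.ord (b : F)).Finite := by
  have h1 : {w : HeightOneSpectrum (FFPlaces.intRing K x) | w.asIdeal ∣ Ideal.span {b}}.Finite :=
    Ideal.finite_factors (by rwa [Ne, Ideal.zero_eq_bot, Ideal.span_singleton_eq_bot])
  refine ((h1.image (Place.ofHeightOneSpectrum (K := K) (F := F))).union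
    (finite_poles hxt)).subset ?_
  intro v hv
  rw [Function.mem_support] at hv
  by_cases hx : x ∈ v.toValuationSubring
  · left
    obtain ⟨w, rfl⟩ := exists_heightOneSpectrum v hx
    refine ⟨w, ?_, rfl⟩
    rw [ord_coe_eq_multiplicity w b hb] at hv
    show w.asIdeal ∣ Ideal.span {b}
    by_contra hnd
    exact hv (by rw [multiplicity_eq_zero.mpr hnd]; rfl)
  · right
    exact ord_neg_of_notMem v hx

/-- Every element of `F` has finitely many zeros and poles. -/
theorem finite_support_ord (hxt : Transcendental K x) (f : F) :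
    (Function.support fun v : Place K F => v.ord f).Finite := by
  rcases eq_or_ne f 0 with rfl | hf
  · have : (fun v : Place K F => v.ord (0 : F)) = 0 := by
      funext v
      exact v.ord_zero
    rw [this, Function.support_zero]
    exact Set.finite_empty
  obtain ⟨b, c, hc, rfl⟩ := IsFractionRing.div_surjective (A := FFPlaces.intRing K x) f
  have hc0 : c ≠ 0 := nonZeroDivisors.ne_zero hc
  have hb0 : b ≠ 0 := by
    rintro rfl
    simp at hf
  have e1 : ∀ d : FFPlaces.intRing K x, algebraMap (FFPlaces.intRing K x) F d = (d : F) :=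
    fun _ => rfl
  have hF : ∀ d : FFPlaces.intRing K x, d ≠ 0 → (d : F) ≠ 0 := fun d hd h0 =>
    hd (Subtype.ext h0)
  refine ((finite_support_ord_coe hxt b hb0).union (finite_support_ord_coe hxt c hc0)).subset ?_
  intro v hv
  rw [Function.mem_support, e1, e1, ord_div v (hF b hb0) (hF c hc0)] at hv
  by_contra hcon
  simp only [Set.mem_union, Function.mem_support, not_or, not_not] at hcon
  exact hv (by rw [hcon.1, hcon.2, sub_zero])

/-- The divisor of a function (zero for `f = 0`). -/
def divOf (hxt : Transcendental K x) (f : F) : Divisor K F :=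
  Finsupp.ofSupportFinite (fun v => v.ord f) (finite_support_ord hxt f)

@[simp] theorem divOf_apply (hxt : Transcendental K x) (f : F) (v : Place K F) :
    divOf hxt f v = v.ord f := rfl

theorem divOf_mul (hxt : Transcendental K x) {f g : F} (hf : f ≠ 0) (hg : g ≠ 0) :
    divOf hxt (f * g) = divOf hxt f + divOf hxt g := by
  ext v
  simp [v.ord_mul hf hg]

theorem divOf_inv (hxt : Transcendental K x) (f : F) : divOf hxt f⁻¹ = -divOf hxt f := by
  ext v
  simp [v.ord_inv]

theorem divOf_mem_principal (hxt : Transcendental K x) {f : F} (hf : f ≠ 0) :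
    divOf hxt f ∈ Divisor.principal (K := K) (F := F) :=
  ⟨f, hf, fun _ => rfl⟩

/-- Additivity of the total order. -/
theorem sum_ord_mul (hxt : Transcendental K x) {f g : F} (hf : f ≠ 0) (hg : g ≠ 0) :
    ∑ᶠ v : Place K F, v.ord (f * g) =
      ∑ᶠ v : Place K F, v.ord f + ∑ᶠ v : Place K F, v.ord g := by
  rw [← finsum_add_distrib (finite_support_ord hxt f) (finite_support_ord hxt g)]
  exact finsum_congr fun v => v.ord_mul hf hg

omit [FiniteDimensional K⟮x⟯ F] [Algebra.IsSeparable K⟮x⟯ F] in
theorem sum_ord_inv (f : F) :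
    ∑ᶠ v : Place K F, v.ord f⁻¹ = -∑ᶠ v : Place K F, v.ord f := by
  rw [← finsum_neg_distrib]
  exact finsum_congr fun v => v.ord_inv f

omit [FiniteDimensional K⟮x⟯ F] [Algebra.IsSeparable K⟮x⟯ F] in
theorem sum_ord_algebraMap (c : K) : ∑ᶠ v : Place K F, v.ord (algebraMap K F c) = 0 := by
  rw [finsum_congr fun v : Place K F => FFPlaces.ord_algebraMap v c, finsum_zero]

end Support

section Degree

open IntermediateField IntermediateField.algebraAdjoinAdjoin

variable {K F : Type*} [Field K] [Field F] [Algebra K F] {x : F}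
variable [FiniteDimensional K⟮x⟯ F] [Algebra.IsSeparable K⟮x⟯ F] [IsAlgClosed K]

omit [FiniteDimensional K⟮x⟯ F] [Algebra.IsSeparable K⟮x⟯ F] [IsAlgClosed K] in
/-- `x - a` and `x` have the same poles. -/
theorem poles_sub_algebraMap_eq (a : K) :
    {v : Place K F | v.ord (x - algebraMap K F a) < 0} = {v : Place K F | v.ord x < 0} := by
  ext v
  constructor
  · intro hv
    have h := ord_sub_algebraMap_of_neg v hv (-a)
    rw [map_neg, sub_neg_eq_add, sub_add_cancel] at h
    show v.ord x < 0
    rw [h]
    exact hv
  · intro hv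
    show v.ord (x - algebraMap K F a) < 0
    rw [ord_sub_algebraMap_of_neg v hv a]
    exact hv

/-- The divisor of `x - a` has degree zero. -/
theorem sum_ord_sub_algebraMap (hxt : Transcendental K x) (a : K) :
    ∑ᶠ v : Place K F, v.ord (x - algebraMap K F a) = 0 := by
  have hcongr : ∑ᶠ v ∈ {v : Place K F | v.ord x < 0}, v.ord (x - algebraMap K F a) =
      ∑ᶠ v ∈ {v : Place K F | v.ord x < 0}, v.ord x :=
    finsum_mem_congr rfl (fun v hv => ord_sub_algebraMap_of_neg v hv a)
  rw [finsum_eq_pos_add_neg (finite_support_ord hxt _), sum_ord_zeros hxt a,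
    poles_sub_algebraMap_eq a, hcongr, sum_ord_poles hxt]
  ring

/-- Products of factors `x - a` are nonzero of degree zero. -/
theorem sum_ord_multiset_prod (hxt : Transcendental K x) (m : Multiset K) :
    (m.map fun a => x - algebraMap K F a).prod ≠ 0 ∧
      ∑ᶠ v : Place K F, v.ord ((m.map fun a => x - algebraMap K F a).prod) = 0 := by
  induction m using Multiset.induction_on with
  | empty =>
    refine ⟨by simp, ?_⟩
    rw [Multiset.map_zero, Multiset.prod_zero]
    have := sum_ord_algebraMap (K := K) (F := F) 1
    rwa [map_one] at this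
  | cons a m ih =>
    rw [Multiset.map_cons, Multiset.prod_cons]
    refine ⟨mul_ne_zero (FFPlaces.sub_algebraMap_ne_zero hxt a) ih.1, ?_⟩
    rw [sum_ord_mul hxt (FFPlaces.sub_algebraMap_ne_zero hxt a) ih.1,
      sum_ord_sub_algebraMap hxt a, ih.2, add_zero]

/-- A nonzero polynomial in `x` has a divisor of degree zero. -/
theorem sum_ord_aeval (hxt : Transcendental K x) (P : Polynomial K) (hP : P ≠ 0) :
    Polynomial.aeval x P ≠ 0 ∧ ∑ᶠ v : Place K F, v.ord (Polynomial.aeval x P) = 0 := by
  have hsplit := (IsAlgClosed.splits P).eq_prod_roots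
  have hlc : P.leadingCoeff ≠ 0 := Polynomial.leadingCoeff_ne_zero.mpr hP
  have hev : Polynomial.aeval x P = algebraMap K F P.leadingCoeff *
      (P.roots.map fun a => x - algebraMap K F a).prod := by
    conv_lhs => rw [hsplit]
    rw [map_mul, Polynomial.aeval_C, map_multiset_prod, Multiset.map_map]
    congr 2
    refine Multiset.map_congr rfl fun a _ => ?_
    simp
  have hm := sum_ord_multiset_prod (F := F) hxt P.roots
  have hc : algebraMap K F P.leadingCoeff ≠ 0 := by
    rwa [Ne, map_eq_zero]
  rw [hev]
  refine ⟨mul_ne_zero hc hm.1, ?_⟩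
  rw [sum_ord_mul hxt hc hm.1, sum_ord_algebraMap, hm.2, add_zero]

/-- A nonzero element of `K[x]` has a divisor of degree zero. -/
theorem sum_ord_coe_polyRing (hxt : Transcendental K x) (r : FFPlaces.polyRing K x)
    (hr : r ≠ 0) : ∑ᶠ v : Place K F, v.ord (r : F) = 0 := by
  obtain ⟨P, rfl⟩ := FFPlaces.polyMap_surjective K x r
  have hP : P ≠ 0 := by
    rintro rfl
    simp at hr
  have hcoe : ((FFPlaces.polyMap K x P : FFPlaces.polyRing K x) : F) = Polynomial.aeval x P := by
    simp [FFPlaces.polyMap]
  rw [hcoe]
  exact (sum_ord_aeval hxt P hP).2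

/-- A nonzero element of `K(x)` has a divisor of degree zero. -/
theorem sum_ord_coe_adjoin (hxt : Transcendental K x) (g : K⟮x⟯) (hg : g ≠ 0) :
    ∑ᶠ v : Place K F, v.ord (algebraMap K⟮x⟯ F g) = 0 := by
  obtain ⟨r, s, hs, rfl⟩ := IsFractionRing.div_surjective (A := FFPlaces.polyRing K x) g
  have hs0 : s ≠ 0 := nonZeroDivisors.ne_zero hs
  have hr0 : r ≠ 0 := by
    rintro rfl
    simp at hg
  have hF : ∀ d : FFPlaces.polyRing K x, d ≠ 0 → (d : F) ≠ 0 := fun d hd h0 =>
    hd (Subtype.ext h0)
  have e1 : ∀ d : FFPlaces.polyRing K x,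
      algebraMap K⟮x⟯ F (algebraMap (FFPlaces.polyRing K x) K⟮x⟯ d) = (d : F) := fun _ => rfl
  rw [map_div₀, e1, e1, div_eq_mul_inv, sum_ord_mul hxt (hF r hr0) (inv_ne_zero (hF s hs0)),
    sum_ord_inv, sum_ord_coe_polyRing hxt r hr0, sum_ord_coe_polyRing hxt s hs0]
  ring

/-- The fibres of the `x`-line: zeros of `x - a` for `a : K`, and the poles of `x`. -/
def fibre (K : Type*) {F : Type*} [Field K] [Field F] [Algebra K F] (x : F) :
    Option K → Set (Place K F)
  | none => {v | v.ord x < 0}
  | some a => {v | 0 < v.ord (x - algebraMap K F a)}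

omit [FiniteDimensional K⟮x⟯ F] [Algebra.IsSeparable K⟮x⟯ F] [IsAlgClosed K] in
theorem fibre_disjoint : Pairwise (Function.onFun Disjoint (fibre K x)) := by
  have key : ∀ (a : K), Disjoint (fibre K x (some a)) (fibre K x none) := by
    intro a
    rw [Set.disjoint_left]
    intro v hv hv'
    have h1 : 0 < v.ord (x - algebraMap K F a) := hv
    have h2 : v.ord x < 0 := hv'
    rw [ord_sub_algebraMap_of_neg v h2 a] at h1
    omega
  intro s t hst
  show Disjoint (fibre K x s) (fibre K x t)
  cases s with
  | none =>
    cases t with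
    | none => exact absurd rfl hst
    | some b => exact (key b).symm
  | some a =>
    cases t with
    | none => exact key a
    | some b =>
      rw [Set.disjoint_left]
      intro v hv hv'
      have h1 : 0 < v.ord (x - algebraMap K F a) := hv
      have h2 : 0 < v.ord (x - algebraMap K F b) := hv'
      exact hst (congrArg some (residue_unique v (Or.inr h1) (Or.inr h2)))

omit [IsAlgClosed K] in
theorem fibre_finite (hxt : Transcendental K x) (t : Option K) : (fibre K x t).Finite := by
  cases t with
  | none => exact finite_poles hxt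
  | some a => exact finite_zeros hxt a

theorem fibre_cover (hxt : Transcendental K x) (v : Place K F) : ∃ t, v ∈ fibre K x t := by
  by_cases hx : x ∈ v.toValuationSubring
  · obtain ⟨a, ha, -⟩ := exists_unique_zero hxt v hx
    exact ⟨some a, ha⟩
  · exact ⟨none, ord_neg_of_notMem v hx⟩

/-- **Principal divisors have degree zero** (any characteristic, `K` algebraically closed, `F`
finite separable over `K(x)`; `f` itself need not be separating). -/
theorem sum_ord_eq_zero (hxt : Transcendental K x) {f : F} (hf : f ≠ 0) :
    ∑ᶠ v : Place K F, v.ord f = 0 := by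
  have hg0 : Algebra.norm K⟮x⟯ f ≠ 0 := by
    rwa [Ne, Algebra.norm_eq_zero_iff]
  have h1 : ∑ᶠ v : Place K F, v.ord (algebraMap K⟮x⟯ F (Algebra.norm K⟮x⟯ f)) =
      (Module.finrank K⟮x⟯ F : ℤ) * ∑ᶠ v : Place K F, v.ord f :=
    finsum_eq_mul_finsum_of_cover (fibre K x) fibre_disjoint (fibre_finite hxt) (fibre_cover hxt)
      (finite_support_ord hxt _) (finite_support_ord hxt f) _ (fun t => by
        cases t with
        | none => exact sum_ord_norm_poles hxt hf
        | some a => exact sum_ord_norm hxt a hf)
  have hn : (Module.finrank K⟮x⟯ F : ℤ) ≠ 0 := by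
    exact_mod_cast (Module.finrank_pos (R := K⟮x⟯) (M := F)).ne'
  rw [sum_ord_coe_adjoin hxt _ hg0] at h1
  exact (mul_eq_zero.mp h1.symm).resolve_left hn

/-- Over an algebraically closed field of constants the degree of a divisor is the sum of its
coefficients. -/
theorem degree_eq_finsum (x : F) [FiniteDimensional K⟮x⟯ F] [Algebra.IsSeparable K⟮x⟯ F]
    (D : Divisor K F) : Divisor.degree D = ∑ᶠ v : Place K F, D v := by
  rw [finsum_eq_sum_of_support_subset (s := D.support) _ (by
    intro v hv
    simpa using hv)]
  simp only [Divisor.degree, Finsupp.liftAddHom_apply, Finsupp.sum, AddMonoidHom.coe_mulRight]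
  refine Finset.sum_congr rfl fun v _ => ?_
  rw [deg_eq_one x v, Nat.cast_one, mul_one]

theorem degree_divOf (hxt : Transcendental K x) {f : F} (hf : f ≠ 0) :
    Divisor.degree (divOf hxt f) = 0 := by
  rw [degree_eq_finsum x]
  exact sum_ord_eq_zero hxt hf

/-- The Prelude class: every nonzero function has a divisor, of degree zero. -/
theorem hasPrincipalDivisors (hxt : Transcendental K x) : HasPrincipalDivisors K F :=
  ⟨fun f hf => ⟨divOf hxt f, fun _ => rfl, degree_divOf hxt hf⟩⟩

/-- Principal divisors have degree zero (Prelude vocabulary). -/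
theorem degree_eq_zero_of_mem_principal (hxt : Transcendental K x) {D : Divisor K F}
    (hD : D ∈ Divisor.principal (K := K) (F := F)) : Divisor.degree D = 0 := by
  obtain ⟨f, hf, hDf⟩ := hD
  have : D = divOf hxt f := by
    ext v
    exact hDf v
  rw [this]
  exact degree_divOf hxt hf

end Degree

end Fermat.Agent.Lib.FFSep
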