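import Mathlib
import Fermat.Prelude.Def_AlgebraicCurve_DivisorClassGroup
import Fermat.Prelude.Def_AlgebraicCurve_Repartitions
import Fermat.Agent.Lib.FFPlaces
import Fermat.Agent.Lib.FFSep.Places
import Fermat.Agent.Lib.FFSep.Norm
import Fermat.Agent.Lib.FFSep.Divisor
import Fermat.Agent.Lib.RationalFF
import Fermat.Agent.Lib.RiemannAbstract
import Fermat.Agent.Lib.FFPoles
import Fermat.Agent.Lib.DedekindWeber.Places

/-!
# Function field toolbox in any characteristic, part 4: Riemann–Roch spaces and Riemann's theorem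

`F / K` a field extension with `K` algebraically closed, `x : F` transcendental with `F / K(x)`
finite separable (any characteristic).  In the Prelude vocabulary (`Divisor K F`,
`riemannRochSpace`):

* `riemannRochSpace_eq_bot_of_degree_neg` : `L(D) = 0` if `deg D < 0`;
* `finite_riemannRochSpace`, `finrank_riemannRochSpace_le` : `L(D)` is finite dimensional, of
  dimension `≤ deg D + 1` if `deg D ≥ 0`;
* `finrank_riemannRochSpace_sub_le` : `l(B') - l(B) ≤ deg B' - deg B` for `B ≤ B'`;
* `finrank_riemannRochSpace_add_principal` : `l(B + div f) = l(B)`;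
* `riemannSetup` : the hypotheses of the abstract Riemann theorem `Lib/RiemannAbstract`;
* `exists_isGenus`, `exists_riemann` : **Riemann's theorem** — there is `g` with
  `deg A + 1 - g ≤ l(A)` for all divisors `A`, with equality for all `A` of large degree.
-/

set_option autoImplicit false

noncomputable section

namespace Fermat.Agent.Lib.FFSep

open AlgebraicCurve IntermediateField

section LSpace

variable {K F : Type*} [Field K] [Field F] [Algebra K F] {x : F}
variable [FiniteDimensional K⟮x⟯ F] [Algebra.IsSeparable K⟮x⟯ F] [IsAlgClosed K]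

/-- There is at least one place. -/
theorem nonempty_place (hxt : Transcendental K x) : Nonempty (Place K F) := by
  by_contra h
  rw [not_nonempty_iff] at h
  have h1 := sum_ord_zeros_self (F := F) hxt
  rw [finsum_of_isEmpty] at h1
  have hn : 0 < Module.finrank K⟮x⟯ F := Module.finrank_pos
  have : (0 : ℤ) < (Module.finrank K⟮x⟯ F : ℤ) := by exact_mod_cast hn
  omega

/-- `L(D) = 0` for a divisor of negative degree. -/
theorem riemannRochSpace_eq_bot_of_degree_neg (hxt : Transcendental K x) (D : Divisor K F)
    (hD : Divisor.degree D < 0) : riemannRochSpace D = ⊥ := by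
  rw [eq_bot_iff]
  intro f hf
  rw [Submodule.mem_bot]
  by_contra hf0
  rw [mem_riemannRochSpace_iff] at hf
  have h1 : (fun v : Place K F => -D v) ≤ fun v => v.ord f := fun v =>
    (hf v).resolve_left hf0
  have hfin : (Function.support fun v : Place K F => -D v).Finite := by
    refine Set.Finite.subset (Finsupp.hasFiniteSupport D) ?_
    intro v hv
    simp only [Function.mem_support, ne_eq, neg_eq_zero] at hv
    simpa using hv
  have h2 := finsum_le_finsum' hfin (finite_support_ord hxt f) h1
  rw [sum_ord_eq_zero hxt hf0, finsum_neg_distrib, ← degree_eq_finsum x] at h2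
  omega

/-- `L(D)` is finite dimensional, and `l(D) ≤ deg D + 1` when `deg D ≥ -1`. -/
theorem finite_and_finrank_riemannRochSpace_le (hxt : Transcendental K x) (D : Divisor K F) :
    Module.Finite K (riemannRochSpace D) ∧
      (-1 ≤ Divisor.degree D →
        (Module.finrank K (riemannRochSpace D) : ℤ) ≤ Divisor.degree D + 1) := by
  classical
  obtain ⟨v₀⟩ := nonempty_place (F := F) hxt
  have hv₀ : v₀.deg = 1 := deg_eq_one x v₀
  set m : ℕ := (Divisor.degree D + 1).toNat with hm
  set B : Divisor K F := D - Finsupp.single v₀ (m : ℤ) with hB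
  have hdegB : Divisor.degree B = Divisor.degree D - m := by
    rw [hB, map_sub, Divisor.degree_single, hv₀, Nat.cast_one, mul_one]
  have hBneg : Divisor.degree B < 0 := by
    rw [hdegB, hm]
    have := Int.self_le_toNat (Divisor.degree D + 1)
    omega
  have hbot := riemannRochSpace_eq_bot_of_degree_neg hxt B hBneg
  have hfinB : Module.Finite K (riemannRochSpace B) := by
    rw [hbot]
    infer_instance
  have hBD : B ≤ D := by
    rw [hB, sub_le_self_iff]
    intro v
    simp only [Finsupp.coe_zero, Pi.zero_apply]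
    rw [Finsupp.single_apply]
    split_ifs
    · exact Int.natCast_nonneg m
    · exact le_refl _
  obtain ⟨h1, h2⟩ := RationalFF.finrank_riemannRochSpace_le_of_le B D hBD
    (fun Q _ => by rw [deg_eq_one x Q]; exact Nat.one_pos)
  refine ⟨h1, fun hdeg => ?_⟩
  have h3 : Module.finrank K (riemannRochSpace B) = 0 := by
    rw [hbot]
    exact finrank_bot K F
  rw [h3, hdegB] at h2
  have h4 : ((Divisor.degree D + 1).toNat : ℤ) = Divisor.degree D + 1 :=
    Int.toNat_of_nonneg (by omega)
  rw [hm] at h2
  push_cast at h2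
  omega

theorem finite_riemannRochSpace (hxt : Transcendental K x) (D : Divisor K F) :
    Module.Finite K (riemannRochSpace D) :=
  (finite_and_finrank_riemannRochSpace_le hxt D).1

theorem finrank_riemannRochSpace_le (hxt : Transcendental K x) (D : Divisor K F)
    (hD : -1 ≤ Divisor.degree D) :
    (Module.finrank K (riemannRochSpace D) : ℤ) ≤ Divisor.degree D + 1 :=
  (finite_and_finrank_riemannRochSpace_le hxt D).2 hD

/-- The step inequality `l(B') - l(B) ≤ deg B' - deg B` for `B ≤ B'`. -/
theorem finrank_riemannRochSpace_sub_le (hxt : Transcendental K x) {B B' : Divisor K F}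
    (h : B ≤ B') :
    (Module.finrank K (riemannRochSpace B') : ℤ) - Module.finrank K (riemannRochSpace B) ≤
      Divisor.degree B' - Divisor.degree B := by
  have := finite_riemannRochSpace hxt B
  have h2 := (RationalFF.finrank_riemannRochSpace_le_of_le B B' h
    (fun Q _ => by rw [deg_eq_one x Q]; exact Nat.one_pos)).2
  omega

omit [FiniteDimensional K⟮x⟯ F] [Algebra.IsSeparable K⟮x⟯ F] [IsAlgClosed K] in
/-- Multiplication by `f` maps `L(B + E)` into `L(B)` when `E v = ord_v f` for all `v`. -/
theorem mul_mem_riemannRochSpace {B E : Divisor K F} {f : F} (hf : f ≠ 0)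
    (hE : ∀ v : Place K F, E v = v.ord f) {g : F} (hg : g ∈ riemannRochSpace (B + E)) :
    g * f ∈ riemannRochSpace B := by
  rw [mem_riemannRochSpace_iff] at hg ⊢
  intro v
  rcases eq_or_ne g 0 with rfl | hg0
  · left
    rw [zero_mul]
  · right
    have h1 := (hg v).resolve_left hg0
    rw [Finsupp.add_apply, hE v] at h1
    rw [v.ord_mul hg0 hf]
    omega

/-- `L(B + div f) ≃ L(B)`, `g ↦ g * f`. -/
def mulEquiv {B E : Divisor K F} {f : F} (hf : f ≠ 0) (hE : ∀ v : Place K F, E v = v.ord f) :
    riemannRochSpace (B + E) ≃ₗ[K] riemannRochSpace B where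
  toFun g := ⟨g.1 * f, mul_mem_riemannRochSpace hf hE g.2⟩
  map_add' g h := Subtype.ext (add_mul _ _ _)
  map_smul' c g := Subtype.ext (smul_mul_assoc c g.1 f)
  invFun g := ⟨g.1 * f⁻¹, by
    have h1 : g.1 ∈ riemannRochSpace ((B + E) + -E) := by
      rw [add_neg_cancel_right]
      exact g.2
    exact mul_mem_riemannRochSpace (B := B + E) (E := -E) (inv_ne_zero hf)
      (fun v => by rw [Finsupp.neg_apply, hE v, v.ord_inv]) h1⟩
  left_inv g := Subtype.ext (by
    show g.1 * f * f⁻¹ = g.1
    rw [mul_assoc, mul_inv_cancel₀ hf, mul_one])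
  right_inv g := Subtype.ext (by
    show g.1 * f⁻¹ * f = g.1
    rw [mul_assoc, inv_mul_cancel₀ hf, mul_one])

omit [FiniteDimensional K⟮x⟯ F] [Algebra.IsSeparable K⟮x⟯ F] [IsAlgClosed K] in
/-- `l(B + z) = l(B)` for a principal divisor `z`. -/
theorem finrank_riemannRochSpace_add_principal (B : Divisor K F) {z : Divisor K F}
    (hz : z ∈ Divisor.principal (K := K) (F := F)) :
    Module.finrank K (riemannRochSpace (B + z)) = Module.finrank K (riemannRochSpace B) := by
  obtain ⟨f, hf, hzf⟩ := hz
  exact (mulEquiv (B := B) hf hzf).finrank_eq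

omit [FiniteDimensional K⟮x⟯ F] [Algebra.IsSeparable K⟮x⟯ F] [IsAlgClosed K] in
/-- A nonzero element of `L(B)` gives a principal divisor `z` with `B + z ≥ 0`. -/
theorem exists_principal_of_finrank_pos (hdiv : ∀ f : F, f ≠ 0 →
      ∃ E : Divisor K F, ∀ v : Place K F, E v = v.ord f) (B : Divisor K F)
    (hB : 0 < Module.finrank K (riemannRochSpace B)) :
    ∃ z ∈ Divisor.principal (K := K) (F := F), 0 ≤ B + z := by
  have hne : Nontrivial (riemannRochSpace B) := Module.nontrivial_of_finrank_pos hB
  obtain ⟨g, hg⟩ := exists_ne (0 : riemannRochSpace B)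
  have hg0 : (g : F) ≠ 0 := fun h => hg (Subtype.ext h)
  obtain ⟨E, hE⟩ := hdiv (g : F) hg0
  refine ⟨E, ⟨(g : F), hg0, hE⟩, ?_⟩
  intro v
  have h1 := ((mem_riemannRochSpace_iff.mp g.2) v).resolve_left hg0
  rw [Finsupp.add_apply, hE v]
  simp only [Finsupp.coe_zero, Pi.zero_apply]
  omega

/-- The hypotheses of the abstract Riemann theorem hold for the Prelude divisor group. -/
theorem riemannSetup (hxt : Transcendental K x) :
    RiemannAbstract.Setup (Divisor.degree (K := K) (F := F))
      (fun B => (Module.finrank K (riemannRochSpace B) : ℤ))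
      (Divisor.principal (K := K) (F := F)) where
  step := fun B B' h => finrank_riemannRochSpace_sub_le hxt h
  deg_princ := fun z hz => degree_eq_zero_of_mem_principal hxt hz
  l_princ := fun B z hz => by
    show (Module.finrank K (riemannRochSpace (B + z)) : ℤ) = _
    rw [finrank_riemannRochSpace_add_principal B hz]
  exist := fun B hB => exists_principal_of_finrank_pos
    (fun f _ => ⟨divOf hxt f, fun _ => rfl⟩) B (by exact_mod_cast hB)
  pos := RiemannAbstract.finsupp_pos

/-- **Riemann's theorem**, genus form. -/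
theorem exists_isGenus (hxt : Transcendental K x) :
    ∃ g : ℤ, RiemannAbstract.IsGenus (Divisor.degree (K := K) (F := F))
      (fun B => (Module.finrank K (riemannRochSpace B) : ℤ)) g := by
  obtain ⟨g, c₀, hg⟩ := DedekindWeber.exists_genus_place (F := F) hxt
  obtain ⟨C, hC⟩ := FFPoles.exists_poleDivisor (F := F) hxt
  have hdegC : Divisor.degree C = (Module.finrank K⟮x⟯ F : ℤ) :=
    FFPoles.degree_poleDivisor hxt C hC
  have hn : 0 < Module.finrank K⟮x⟯ F := Module.finrank_pos
  refine ⟨g, RiemannAbstract.isGenus_of_base (riemannSetup hxt) C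
    (by rw [hdegC]; exact_mod_cast hn) g c₀.toNat (fun c hc => ?_)⟩
  have hc' : c₀ ≤ (c : ℤ) := by
    have := Int.self_le_toNat c₀
    omega
  have h1 := (hg (c : ℤ) hc' (c • C) (fun v => by
    rw [Finsupp.smul_apply, hC v, nsmul_eq_mul])).2
  show (Module.finrank K (riemannRochSpace (c • C)) : ℤ) = _
  rw [h1, hdegC]

/-- **Riemann's theorem**: there is `g` with `deg A + 1 - g ≤ l(A)` for every divisor `A`, and
equality for all divisors of large degree. -/
theorem exists_riemann (hxt : Transcendental K x) :
    ∃ g d₀ : ℤ,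
      (∀ A : Divisor K F,
        Divisor.degree A + 1 - g ≤ (Module.finrank K (riemannRochSpace A) : ℤ)) ∧
      ∀ A : Divisor K F, d₀ ≤ Divisor.degree A →
        (Module.finrank K (riemannRochSpace A) : ℤ) = Divisor.degree A + 1 - g := by
  obtain ⟨g, hg⟩ := exists_isGenus (F := F) hxt
  obtain ⟨d₀, hd₀⟩ := hg.exists_forall_eq (riemannSetup hxt)
  exact ⟨g, d₀, hg.1, hd₀⟩

end LSpace

end Fermat.Agent.Lib.FFSep
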