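import Mathlib
import Fermat.Prelude.Def_AlgebraicCurve_BaseChangeGalois
import Fermat.Agent.Lib.FFSep.LSpace

/-!
# Function field toolbox, part 5: reduced divisors and descent along a semilinear group action

`F / K` a function field (`K` algebraically closed, `x : F` transcendental, `F / K(x)` finite
separable), `P` a place.

* `eq_algebraMap_of_ord_nonneg` : a function without poles is constant;
* `smul_mem_riemannRochSpace` : a semilinear automorphism `g` maps `L(B)` to `L(g • B)`;
* `IsReduced P D m E` : `E ≥ 0`, `E ∼ D + m P`, and `L(D + j P) = 0` for `j < m`;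
  existence (`exists_isReduced`), uniqueness on the divisor class (`IsReduced.unique`, for
  `deg D = 0`), equivariance (`IsReduced.smul`);
* `exists_fixed_mul_pow` : **descent**.  Let a group `G` act semilinearly on `F` such that every
  element of `F` with a finite orbit is fixed, fixing the place `Pinf`, and let `lc : F → K` be an
  equivariant "leading coefficient".  If `div u = n • D` and the orbit of `D` meets only finitely
  many divisor classes, then `u = c * f₀ * h ^ n` with `c` a constant and `f₀` fixed by `G`.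
-/

set_option autoImplicit false

noncomputable section

namespace Fermat.Agent.Lib.FFSep

open AlgebraicCurve IntermediateField

section Descent

variable {K F : Type*} [Field K] [Field F] [Algebra K F] {x : F}
variable [FiniteDimensional K⟮x⟯ F] [Algebra.IsSeparable K⟮x⟯ F] [IsAlgClosed K]

/-- A function all of whose orders are nonnegative is a constant. -/
theorem eq_algebraMap_of_ord_nonneg (hxt : Transcendental K x) {f : F}
    (hf : ∀ v : Place K F, 0 ≤ v.ord f) : ∃ c : K, f = algebraMap K F c := by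
  have hfin := finite_riemannRochSpace hxt (0 : Divisor K F)
  have hle : (Module.finrank K (riemannRochSpace (0 : Divisor K F)) : ℤ) ≤ 0 + 1 := by
    have := finrank_riemannRochSpace_le hxt (0 : Divisor K F) (by simp)
    simpa using this
  have hle' : Module.finrank K (riemannRochSpace (0 : Divisor K F)) ≤ 1 := by omega
  have h1 : (1 : F) ∈ riemannRochSpace (0 : Divisor K F) := by
    rw [mem_riemannRochSpace_iff]
    intro v
    right
    simp
  have hf' : f ∈ riemannRochSpace (0 : Divisor K F) := by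
    rw [mem_riemannRochSpace_iff]
    intro v
    right
    simpa using hf v
  obtain ⟨w, hw⟩ := finrank_le_one_iff.mp hle'
  obtain ⟨c1, hc1⟩ := hw ⟨1, h1⟩
  obtain ⟨c2, hc2⟩ := hw ⟨f, hf'⟩
  have hc1' : c1 • (w : F) = 1 := congrArg Subtype.val hc1
  have hc2' : c2 • (w : F) = f := congrArg Subtype.val hc2
  have hc10 : c1 ≠ 0 := by
    rintro rfl
    rw [zero_smul] at hc1'
    exact zero_ne_one hc1'
  have hw' : (w : F) = algebraMap K F c1⁻¹ := by
    have : (w : F) = c1⁻¹ • (c1 • (w : F)) := by rw [smul_smul, inv_mul_cancel₀ hc10, one_smul]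
    rw [this, hc1', Algebra.smul_def, mul_one]
  refine ⟨c2 * c1⁻¹, ?_⟩
  rw [← hc2', hw', Algebra.smul_def, map_mul]

/-- A nonzero function all of whose orders vanish is a nonzero constant. -/
theorem eq_algebraMap_of_ord_eq_zero (hxt : Transcendental K x) {f : F}
    (hf : ∀ v : Place K F, v.ord f = 0) : ∃ c : K, f = algebraMap K F c :=
  eq_algebraMap_of_ord_nonneg hxt fun v => (hf v).ge

omit [FiniteDimensional K⟮x⟯ F] [Algebra.IsSeparable K⟮x⟯ F] [IsAlgClosed K] in
/-- The order at `w` of `g • f` is the order of `f` at `g⁻¹ • w`. -/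
theorem ord_smul_eq (g : SemilinearAut K F) (w : Place K F) (f : F) :
    w.ord (g • f) = (g⁻¹ • w).ord f := by
  have h := SemilinearAut.ord_smul g (g⁻¹ • w) f
  rwa [smul_inv_smul] at h

omit [FiniteDimensional K⟮x⟯ F] [Algebra.IsSeparable K⟮x⟯ F] [IsAlgClosed K] in
/-- A semilinear automorphism maps `L(B)` into `L(g • B)`. -/
theorem smul_mem_riemannRochSpace (g : SemilinearAut K F) {B : Divisor K F} {f : F}
    (hf : f ∈ riemannRochSpace B) : g • f ∈ riemannRochSpace (g • B) := by
  rw [mem_riemannRochSpace_iff] at hf ⊢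
  intro w
  rcases hf (g⁻¹ • w) with h | h
  · left
    rw [h, smul_zero]
  · right
    rw [SemilinearAut.divisor_smul_apply, ord_smul_eq]
    exact h

omit [FiniteDimensional K⟮x⟯ F] [Algebra.IsSeparable K⟮x⟯ F] [IsAlgClosed K] in
theorem riemannRochSpace_smul_eq_bot (g : SemilinearAut K F) {B : Divisor K F}
    (hB : riemannRochSpace B = ⊥) : riemannRochSpace (g • B) = ⊥ := by
  rw [eq_bot_iff]
  intro f hf
  have h1 : g⁻¹ • f ∈ riemannRochSpace (g⁻¹ • g • B) := smul_mem_riemannRochSpace g⁻¹ hf
  rw [inv_smul_smul, hB, Submodule.mem_bot] at h1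
  rw [Submodule.mem_bot]
  have h2 : g • g⁻¹ • f = g • (0 : F) := congrArg (g • ·) h1
  rwa [smul_inv_smul, smul_zero] at h2

/-- `(m, E)` is a reduced pair for the divisor `D` with respect to the place `P`: `E` is
effective, linearly equivalent to `D + m P`, and `L(D + j P) = 0` for all `j < m`. -/
def IsReduced (P : Place K F) (D : Divisor K F) (m : ℕ) (E : Divisor K F) : Prop :=
  0 ≤ E ∧ E - (D + Finsupp.single P (m : ℤ)) ∈ Divisor.principal (K := K) (F := F) ∧
    ∀ j : ℕ, j < m → riemannRochSpace (D + Finsupp.single P (j : ℤ)) = ⊥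

omit [FiniteDimensional K⟮x⟯ F] [Algebra.IsSeparable K⟮x⟯ F] [IsAlgClosed K] in
/-- The generator: a nonzero element of `L(D + m P)`. -/
theorem IsReduced.exists_mem {P : Place K F} {D : Divisor K F} {m : ℕ} {E : Divisor K F}
    (h : IsReduced P D m E) :
    ∃ f : F, f ≠ 0 ∧ (∀ v : Place K F, (E - (D + Finsupp.single P (m : ℤ))) v = v.ord f) ∧
      f ∈ riemannRochSpace (D + Finsupp.single P (m : ℤ)) := by
  obtain ⟨f, hf0, hf⟩ := h.2.1
  refine ⟨f, hf0, hf, ?_⟩
  rw [mem_riemannRochSpace_iff]
  intro v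
  right
  rw [← hf v, Finsupp.sub_apply]
  have := h.1 v
  simp only [Finsupp.coe_zero, Pi.zero_apply] at this
  omega

omit [FiniteDimensional K⟮x⟯ F] [Algebra.IsSeparable K⟮x⟯ F] [IsAlgClosed K] in
theorem IsReduced.ne_bot {P : Place K F} {D : Divisor K F} {m : ℕ} {E : Divisor K F}
    (h : IsReduced P D m E) : riemannRochSpace (D + Finsupp.single P (m : ℤ)) ≠ ⊥ := by
  obtain ⟨f, hf0, -, hf⟩ := h.exists_mem
  intro hbot
  rw [hbot, Submodule.mem_bot] at hf
  exact hf0 hf

/-- Existence of a reduced pair. -/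
theorem exists_isReduced (hxt : Transcendental K x) (P : Place K F) (D : Divisor K F) :
    ∃ (m : ℕ) (E : Divisor K F), IsReduced P D m E := by
  classical
  obtain ⟨g, d₀, hg, -⟩ := exists_riemann (F := F) hxt
  have hP : P.deg = 1 := deg_eq_one x P
  have hex : ∃ m : ℕ, riemannRochSpace (D + Finsupp.single P (m : ℤ)) ≠ ⊥ := by
    refine ⟨(g - Divisor.degree D).toNat, fun hbot => ?_⟩
    have h1 := hg (D + Finsupp.single P (((g - Divisor.degree D).toNat : ℕ) : ℤ))
    rw [hbot, finrank_bot, map_add, Divisor.degree_single, hP] at h1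
    have h2 := Int.self_le_toNat (g - Divisor.degree D)
    push_cast at h1
    omega
  set m := Nat.find hex with hm
  have hmin : ∀ j : ℕ, j < m → riemannRochSpace (D + Finsupp.single P (j : ℤ)) = ⊥ :=
    fun j hj => not_not.mp (Nat.find_min hex hj)
  have hne : riemannRochSpace (D + Finsupp.single P (m : ℤ)) ≠ ⊥ := Nat.find_spec hex
  obtain ⟨f, hfmem, hf0⟩ := (Submodule.ne_bot_iff _).mp hne
  refine ⟨m, D + Finsupp.single P (m : ℤ) + divOf hxt f, ?_, ?_, hmin⟩
  · intro v
    have h1 := ((mem_riemannRochSpace_iff.mp hfmem) v).resolve_left hf0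
    simp only [Finsupp.coe_zero, Pi.zero_apply, Finsupp.add_apply, divOf_apply] at h1 ⊢
    omega
  · rw [add_sub_cancel_left]
    exact divOf_mem_principal hxt hf0

/-- At the minimal `m`, the space `L(D + m P)` has dimension at most one (for `deg D = 0`). -/
theorem IsReduced.finrank_le_one (hxt : Transcendental K x) {P : Place K F} {D : Divisor K F}
    {m : ℕ} {E : Divisor K F} (h : IsReduced P D m E) (hD : Divisor.degree D = 0) :
    Module.finrank K (riemannRochSpace (D + Finsupp.single P (m : ℤ))) ≤ 1 := by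
  have hP : P.deg = 1 := deg_eq_one x P
  rcases Nat.eq_zero_or_pos m with rfl | hm
  · have h1 := finrank_riemannRochSpace_le hxt (D + Finsupp.single P ((0 : ℕ) : ℤ)) (by
      rw [map_add, Divisor.degree_single, hD]; simp)
    rw [map_add, Divisor.degree_single, hD] at h1
    simp only [Nat.cast_zero, zero_mul, add_zero, zero_add] at h1
    exact_mod_cast h1
  · obtain ⟨j, rfl⟩ : ∃ j, m = j + 1 := ⟨m - 1, by omega⟩
    have hbot := h.2.2 j (Nat.lt_succ_self j)
    have hle : D + Finsupp.single P (j : ℤ) ≤ D + Finsupp.single P ((j + 1 : ℕ) : ℤ) := by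
      intro v
      simp only [Finsupp.add_apply]
      by_cases hv : v = P
      · subst hv
        simp
      · simp [Ne.symm hv]
    have h1 := finrank_riemannRochSpace_sub_le hxt hle
    rw [hbot, finrank_bot, map_add, map_add, Divisor.degree_single, Divisor.degree_single, hP]
      at h1
    simp only [Nat.cast_one, mul_one, Nat.cast_zero, sub_zero] at h1
    have h2 : (((j + 1 : ℕ) : ℤ)) = (j : ℤ) + 1 := by push_cast; ring
    have h3 : (Module.finrank K (riemannRochSpace (D + Finsupp.single P ((j + 1 : ℕ) : ℤ))) : ℤ)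
        ≤ 1 := by
      linarith
    exact_mod_cast h3

omit [IsAlgClosed K] in
/-- `L(B + z) = 0 ↔ L(B) = 0` for a principal divisor `z`. -/
theorem riemannRochSpace_eq_bot_of_sub_mem_principal (hfinB : ∀ B : Divisor K F,
      Module.Finite K (riemannRochSpace B)) {B B' : Divisor K F}
    (hz : B' - B ∈ Divisor.principal (K := K) (F := F)) (hB : riemannRochSpace B = ⊥) :
    riemannRochSpace B' = ⊥ := by
  have h1 := finrank_riemannRochSpace_add_principal B hz
  rw [add_sub_cancel, hB, finrank_bot] at h1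
  have := hfinB B'
  exact Submodule.finrank_eq_zero.mp h1

/-- Uniqueness of the reduced pair on the divisor class (degree zero). -/
theorem IsReduced.unique (hxt : Transcendental K x) {P : Place K F} {D D' : Divisor K F}
    {m m' : ℕ} {E E' : Divisor K F} (hD : Divisor.degree D = 0) (h : IsReduced P D m E)
    (h' : IsReduced P D' m' E') (hDD' : D' - D ∈ Divisor.principal (K := K) (F := F)) :
    m = m' ∧ E = E' := by
  have hfinB : ∀ B : Divisor K F, Module.Finite K (riemannRochSpace B) :=
    fun B => finite_riemannRochSpace hxt B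
  have hD'D : D - D' ∈ Divisor.principal (K := K) (F := F) := by
    have := neg_mem hDD'
    rwa [neg_sub] at this
  have hmm' : m = m' := by
    rcases lt_trichotomy m m' with hlt | heq | hgt
    · exfalso
      refine h.ne_bot (riemannRochSpace_eq_bot_of_sub_mem_principal hfinB ?_ (h'.2.2 m hlt))
      rw [add_sub_add_right_eq_sub]
      exact hD'D
    · exact heq
    · exfalso
      refine h'.ne_bot (riemannRochSpace_eq_bot_of_sub_mem_principal hfinB ?_ (h.2.2 m' hgt))
      rw [add_sub_add_right_eq_sub]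
      exact hDD'
  subst hmm'
  refine ⟨rfl, ?_⟩
  -- `E' - E` is principal
  have hEE' : E' - E ∈ Divisor.principal (K := K) (F := F) := by
    have h1 := add_mem (sub_mem h'.2.1 h.2.1) hDD'
    have h2 : E' - (D' + Finsupp.single P (m : ℤ)) - (E - (D + Finsupp.single P (m : ℤ)))
        + (D' - D) = E' - E := by abel
    rwa [h2] at h1
  obtain ⟨r, hr0, hr⟩ := hEE'
  -- `l(E) ≤ 1`
  have hlE : Module.finrank K (riemannRochSpace E) ≤ 1 := by
    have h1 := finrank_riemannRochSpace_add_principal (D + Finsupp.single P (m : ℤ)) h.2.1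
    rw [add_sub_cancel] at h1
    rw [h1]
    exact h.finrank_le_one hxt hD
  have := hfinB E
  have h1mem : (1 : F) ∈ riemannRochSpace E := by
    rw [mem_riemannRochSpace_iff]
    intro v
    right
    have := h.1 v
    simp only [Finsupp.coe_zero, Pi.zero_apply] at this
    rw [Place.ord_one]
    omega
  have hrmem : r ∈ riemannRochSpace E := by
    rw [mem_riemannRochSpace_iff]
    intro v
    right
    rw [← hr v, Finsupp.sub_apply]
    have := h'.1 v
    simp only [Finsupp.coe_zero, Pi.zero_apply] at this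
    omega
  obtain ⟨w, hw⟩ := finrank_le_one_iff.mp hlE
  obtain ⟨c1, hc1⟩ := hw ⟨1, h1mem⟩
  obtain ⟨c2, hc2⟩ := hw ⟨r, hrmem⟩
  have hc1' : c1 • (w : F) = 1 := congrArg Subtype.val hc1
  have hc2' : c2 • (w : F) = r := congrArg Subtype.val hc2
  have hc10 : c1 ≠ 0 := by
    rintro rfl
    rw [zero_smul] at hc1'
    exact zero_ne_one hc1'
  have hw' : (w : F) = algebraMap K F c1⁻¹ := by
    have : (w : F) = c1⁻¹ • (c1 • (w : F)) := by rw [smul_smul, inv_mul_cancel₀ hc10, one_smul]
    rw [this, hc1', Algebra.smul_def, mul_one]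
  have hrc : r = algebraMap K F (c2 * c1⁻¹) := by
    rw [← hc2', hw', Algebra.smul_def, map_mul]
  ext v
  have h3 := hr v
  rw [hrc, FFPlaces.ord_algebraMap, Finsupp.sub_apply] at h3
  omega

omit [FiniteDimensional K⟮x⟯ F] [Algebra.IsSeparable K⟮x⟯ F] [IsAlgClosed K] in
/-- Equivariance of reduced pairs under a semilinear automorphism fixing `P`. -/
theorem IsReduced.smul {P : Place K F} {D : Divisor K F} {m : ℕ} {E : Divisor K F}
    (h : IsReduced P D m E) (g : SemilinearAut K F) (hg : g • P = P) :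
    IsReduced P (g • D) m (g • E) := by
  have hsingle : ∀ j : ℤ, g • (Finsupp.single P j : Divisor K F) = Finsupp.single P j := by
    intro j
    rw [SemilinearAut.smul_single, hg]
  refine ⟨fun v => ?_, ?_, fun j hj => ?_⟩
  · rw [SemilinearAut.divisor_smul_apply]
    exact h.1 _
  · have h1 := SemilinearAut.smul_mem_principal g h.2.1
    rwa [smul_sub, smul_add, hsingle] at h1
  · have h1 := riemannRochSpace_smul_eq_bot g (h.2.2 j hj)
    rwa [smul_add, hsingle] at h1

/-- **Descent along a semilinear group action**, long form (with the reduced divisor).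

`G` acts semilinearly on the function field `F / K` through `φ`; every element of `F` with a
finite `G`-orbit is fixed by `G`; `Pinf` is a `G`-fixed place and `lc : F → K` is a
`G`-equivariant, `K`-homogeneous function not vanishing on `F \ {0}` (a "leading coefficient").
Let `u ≠ 0` with `div u = n • D`, `n > 0`, such that the `G`-orbit of `D` meets only finitely
many divisor classes.  Then `u = c * f₀ * h ^ n` with `c ∈ K`, `f₀` fixed by `G` and
normalised, and `div f₀ = n • (E - m Pinf)` for the (`G`-fixed) reduced divisor `E` of `D`. -/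
theorem exists_fixed_mul_pow' (hxt : Transcendental K x) {G : Type*} [Group G]
    (φ : G →* SemilinearAut K F)
    (hfix : ∀ y : F, (Set.range fun g : G => φ g • y).Finite → ∀ g : G, φ g • y = y)
    (Pinf : Place K F) (hPinf : ∀ g : G, φ g • Pinf = Pinf)
    (lc : F → K) (hlc0 : ∀ y : F, y ≠ 0 → lc y ≠ 0)
    (hlcK : ∀ (a : K) (y : F), lc (algebraMap K F a * y) = a * lc y)
    (hlcG : ∀ (g : G) (y : F), lc (φ g • y) = SemilinearAut.baseAut (φ g) (lc y))
    (n : ℕ) (hn : 0 < n) (u : F) (hu : u ≠ 0) (D : Divisor K F)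
    (hD : ∀ v : Place K F, v.ord u = n * D v)
    (hfin : ∃ T : Finset (Divisor K F), ∀ g : G, ∃ t ∈ T,
      φ g • D - t ∈ Divisor.principal (K := K) (F := F)) :
    ∃ (c : K) (f₀ h : F) (m : ℕ) (E : Divisor K F), c ≠ 0 ∧ f₀ ≠ 0 ∧ h ≠ 0 ∧
      (∀ g : G, φ g • f₀ = f₀) ∧ u = algebraMap K F c * f₀ * h ^ n ∧ lc f₀ = 1 ∧
      IsReduced Pinf D m E ∧ (∀ g : G, φ g • E = E) ∧
      (∀ v : Place K F, v.ord f₀ = n * (E v - Finsupp.single Pinf (m : ℤ) v)) ∧
      (∀ v : Place K F, (E - (D + Finsupp.single Pinf (m : ℤ))) v = -v.ord h) := by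
  classical
  have hnZ : (n : ℤ) ≠ 0 := by exact_mod_cast hn.ne'
  -- `D` has degree zero
  have hdegD : Divisor.degree D = 0 := by
    have h1 : divOf hxt u = n • D := by
      ext v
      rw [divOf_apply, hD v, Finsupp.smul_apply, nsmul_eq_mul]
    have h2 := degree_divOf hxt hu
    rw [h1, map_nsmul, nsmul_eq_mul] at h2
    exact (mul_eq_zero.mp h2).resolve_left hnZ
  obtain ⟨m, E, hred⟩ := exists_isReduced hxt Pinf D
  obtain ⟨f, hf0, hfE, -⟩ := hred.exists_mem
  set w : F := u * f ^ n with hw
  have hw0 : w ≠ 0 := mul_ne_zero hu (pow_ne_zero n hf0)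
  have hordw : ∀ v : Place K F, v.ord w = n * (E v - Finsupp.single Pinf (m : ℤ) v) := by
    intro v
    rw [hw, v.ord_mul hu (pow_ne_zero n hf0), ← zpow_natCast, v.ord_zpow, hD v, ← hfE v]
    simp only [Finsupp.sub_apply, Finsupp.add_apply]
    ring
  have hlcw : lc w ≠ 0 := hlc0 w hw0
  have hcw : algebraMap K F (lc w)⁻¹ ≠ 0 := (map_ne_zero _).mpr (inv_ne_zero hlcw)
  set f' : F := algebraMap K F (lc w)⁻¹ * w with hf'
  have hf'0 : f' ≠ 0 := mul_ne_zero hcw hw0
  have hlcf' : lc f' = 1 := by rw [hf', hlcK, inv_mul_cancel₀ hlcw]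
  have hordf' : ∀ v : Place K F, v.ord f' = n * (E v - Finsupp.single Pinf (m : ℤ) v) := by
    intro v
    rw [hf', v.ord_mul hcw hw0, FFPlaces.ord_algebraMap, zero_add, hordw v]
  -- normalised functions are determined by their divisors
  have hdet : ∀ y z : F, y ≠ 0 → z ≠ 0 → lc y = 1 → lc z = 1 →
      (∀ v : Place K F, v.ord y = v.ord z) → y = z := by
    intro y z hy hz hly hlz hord
    obtain ⟨c, hc⟩ := eq_algebraMap_of_ord_eq_zero hxt (f := y / z) (fun v => by
      rw [ord_div v hy hz, hord v, sub_self])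
    have hyz : y = algebraMap K F c * z := by
      rw [← hc, div_mul_cancel₀ _ hz]
    have h1 : lc y = c * lc z := by
      conv_lhs => rw [hyz]
      exact hlcK c z
    rw [hly, hlz, mul_one] at h1
    rw [hyz, ← h1, map_one, one_mul]
  -- orders of the translates of `f'`
  have hsingle : ∀ (g : G) (v : Place K F),
      Finsupp.single Pinf (m : ℤ) ((φ g)⁻¹ • v) = Finsupp.single Pinf (m : ℤ) v := by
    intro g v
    have h1 : (φ g • (Finsupp.single Pinf (m : ℤ) : Divisor K F)) v =
        Finsupp.single Pinf (m : ℤ) v := by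
      rw [SemilinearAut.smul_single, hPinf]
    rwa [SemilinearAut.divisor_smul_apply] at h1
  have hordg : ∀ (g : G) (v : Place K F),
      v.ord (φ g • f') = n * ((φ g • E) v - Finsupp.single Pinf (m : ℤ) v) := by
    intro g v
    rw [ord_smul_eq, hordf', SemilinearAut.divisor_smul_apply, hsingle]
  have hlcg : ∀ g : G, lc (φ g • f') = 1 := by
    intro g
    rw [hlcG, hlcf', map_one]
  have hg0 : ∀ g : G, φ g • f' ≠ 0 := fun g => by
    rw [Ne, smul_eq_zero_iff_eq]
    exact hf'0
  -- the orbit of `E` is finite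
  obtain ⟨T, hT⟩ := hfin
  let Et : Divisor K F → Divisor K F := fun t =>
    if h : ∃ (m' : ℕ) (E' : Divisor K F), IsReduced Pinf t m' E' then h.choose_spec.choose else 0
  have hEt : ∀ g : G, φ g • E ∈ T.image Et := by
    intro g
    obtain ⟨t, htT, ht⟩ := hT g
    have hred' := hred.smul (φ g) (hPinf g)
    have hex : ∃ (m' : ℕ) (E' : Divisor K F), IsReduced Pinf t m' E' :=
      exists_isReduced hxt Pinf t
    have hspec := hex.choose_spec.choose_spec
    have hdeg' : Divisor.degree (φ g • D) = 0 := by rw [SemilinearAut.degree_smul, hdegD]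
    have htD : t - φ g • D ∈ Divisor.principal (K := K) (F := F) := by
      have := neg_mem ht
      rwa [neg_sub] at this
    have h3 := (IsReduced.unique hxt hdeg' hred' hspec htD).2
    rw [Finset.mem_image]
    refine ⟨t, htT, ?_⟩
    simp only [Et, dif_pos hex]
    exact h3.symm
  -- the orbit of `f'` is finite
  let Φ : Divisor K F → F := fun E'' =>
    if h : ∃ g₀ : G, φ g₀ • E = E'' then φ h.choose • f' else 0
  have hΦ : ∀ g : G, φ g • f' = Φ (φ g • E) := by
    intro g
    have hex : ∃ g₀ : G, φ g₀ • E = φ g • E := ⟨g, rfl⟩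
    simp only [Φ, dif_pos hex]
    refine hdet _ _ (hg0 g) (hg0 _) (hlcg g) (hlcg _) (fun v => ?_)
    rw [hordg, hordg, hex.choose_spec]
  have hfinrange : (Set.range fun g : G => φ g • f').Finite := by
    refine Set.Finite.subset ((T.image Et).finite_toSet.image Φ) ?_
    rintro _ ⟨g, rfl⟩
    exact ⟨φ g • E, hEt g, (hΦ g).symm⟩
  have hfixed := hfix f' hfinrange
  refine ⟨lc w, f', f⁻¹, m, E, hlcw, hf'0, inv_ne_zero hf0, hfixed, ?_, hlcf', hred, ?_,
    hordf', ?_⟩
  · rw [hf', ← mul_assoc, ← map_mul, mul_inv_cancel₀ hlcw, map_one, one_mul, hw, inv_pow,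
      mul_assoc, mul_inv_cancel₀ (pow_ne_zero n hf0), mul_one]
  · intro g
    ext v
    have h1 := hordg g v
    rw [hfixed g, hordf' v] at h1
    have h2 := mul_left_cancel₀ hnZ h1
    omega
  · intro v
    rw [hfE v, Place.ord_inv, neg_neg]

/-- **Descent along a semilinear group action**, short form. -/
theorem exists_fixed_mul_pow (hxt : Transcendental K x) {G : Type*} [Group G]
    (φ : G →* SemilinearAut K F)
    (hfix : ∀ y : F, (Set.range fun g : G => φ g • y).Finite → ∀ g : G, φ g • y = y)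
    (Pinf : Place K F) (hPinf : ∀ g : G, φ g • Pinf = Pinf)
    (lc : F → K) (hlc0 : ∀ y : F, y ≠ 0 → lc y ≠ 0)
    (hlcK : ∀ (a : K) (y : F), lc (algebraMap K F a * y) = a * lc y)
    (hlcG : ∀ (g : G) (y : F), lc (φ g • y) = SemilinearAut.baseAut (φ g) (lc y))
    (n : ℕ) (hn : 0 < n) (u : F) (hu : u ≠ 0) (D : Divisor K F)
    (hD : ∀ v : Place K F, v.ord u = n * D v)
    (hfin : ∃ T : Finset (Divisor K F), ∀ g : G, ∃ t ∈ T,
      φ g • D - t ∈ Divisor.principal (K := K) (F := F)) :
    ∃ (c : K) (f₀ h : F), c ≠ 0 ∧ f₀ ≠ 0 ∧ h ≠ 0 ∧ (∀ g : G, φ g • f₀ = f₀) ∧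
      u = algebraMap K F c * f₀ * h ^ n := by
  obtain ⟨c, f₀, h, -, -, hc, hf₀, hh, hfixed, hu', -⟩ :=
    exists_fixed_mul_pow' hxt φ hfix Pinf hPinf lc hlc0 hlcK hlcG n hn u hu D hD hfin
  exact ⟨c, f₀, h, hc, hf₀, hh, hfixed, hu'⟩

/-- If `Pic⁰[n]` is finite, the orbit of a divisor `D` with `n • D = div u` meets only finitely
many divisor classes. -/
theorem exists_finset_of_finite_torsion (hxt : Transcendental K x) {G : Type*} [Group G]
    (φ : G →* SemilinearAut K F) (n : ℕ) (hn : 0 < n) [Finite (Pic0.torsion K F n)]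
    (u : F) (hu : u ≠ 0) (D : Divisor K F) (hD : ∀ v : Place K F, v.ord u = n * D v) :
    ∃ T : Finset (Divisor K F), ∀ g : G, ∃ t ∈ T,
      φ g • D - t ∈ Divisor.principal (K := K) (F := F) := by
  classical
  have hnZ : (n : ℤ) ≠ 0 := by exact_mod_cast hn.ne'
  have hdegD : Divisor.degree D = 0 := by
    have h1 : divOf hxt u = n • D := by
      ext v
      rw [divOf_apply, hD v, Finsupp.smul_apply, nsmul_eq_mul]
    have h2 := degree_divOf hxt hu
    rw [h1, map_nsmul, nsmul_eq_mul] at h2
    exact (mul_eq_zero.mp h2).resolve_left hnZ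
  have hdeg : ∀ g : G, φ g • D ∈ Divisor.degZero (K := K) (F := F) := fun g =>
    SemilinearAut.smul_mem_degZero (φ g) (Divisor.mem_degZero.mpr hdegD)
  have htors : ∀ g : G, Pic0.mk ⟨φ g • D, hdeg g⟩ ∈ Pic0.torsion K F n := by
    intro g
    rw [Pic0.mem_torsion]
    show (n : ℤ) • (QuotientAddGroup.mk (⟨φ g • D, hdeg g⟩ : Divisor.degZero (K := K) (F := F)) :
      Pic0 K F) = 0
    rw [← QuotientAddGroup.mk_zsmul, QuotientAddGroup.eq_zero_iff,
      AddSubgroup.mem_addSubgroupOf]
    have h1 : (((n : ℤ) • (⟨φ g • D, hdeg g⟩ : Divisor.degZero (K := K) (F := F)) :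
        Divisor.degZero (K := K) (F := F)) : Divisor K F) = φ g • divOf hxt u := by
      rw [AddSubgroup.coe_zsmul]
      ext v
      rw [Finsupp.smul_apply, SemilinearAut.divisor_smul_apply,
        SemilinearAut.divisor_smul_apply, divOf_apply, hD, smul_eq_mul]
    rw [h1]
    exact SemilinearAut.smul_mem_principal (φ g) (divOf_mem_principal hxt hu)
  let rep : Pic0.torsion K F n → Divisor K F := fun c =>
    (((Pic0.mk_surjective (c : Pic0 K F)).choose : Divisor.degZero (K := K) (F := F)) :
      Divisor K F)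
  have hfinr : (Set.range rep).Finite := Set.finite_range rep
  refine ⟨hfinr.toFinset, fun g => ⟨rep ⟨_, htors g⟩, ?_, ?_⟩⟩
  · rw [Set.Finite.mem_toFinset]
    exact ⟨_, rfl⟩
  · have h1 := (Pic0.mk_surjective
      ((⟨_, htors g⟩ : Pic0.torsion K F n) : Pic0 K F)).choose_spec
    have h2 : (QuotientAddGroup.mk ((Pic0.mk_surjective
        ((⟨_, htors g⟩ : Pic0.torsion K F n) : Pic0 K F)).choose) : Pic0 K F) =
        QuotientAddGroup.mk (⟨φ g • D, hdeg g⟩ : Divisor.degZero (K := K) (F := F)) := h1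
    rw [QuotientAddGroup.eq, AddSubgroup.mem_addSubgroupOf] at h2
    have h3 : φ g • D - rep ⟨_, htors g⟩ = ((-(Pic0.mk_surjective
        ((⟨_, htors g⟩ : Pic0.torsion K F n) : Pic0 K F)).choose +
        (⟨φ g • D, hdeg g⟩ : Divisor.degZero (K := K) (F := F)) :
        Divisor.degZero (K := K) (F := F)) : Divisor K F) := by
      rw [AddSubgroup.coe_add, AddSubgroup.coe_neg]
      simp only [rep]
      abel
    rw [h3]
    exact h2

/-- **Descent**, with the finiteness of `Pic⁰[n]` as hypothesis. -/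
theorem exists_fixed_mul_pow_of_finite_torsion (hxt : Transcendental K x) {G : Type*} [Group G]
    (φ : G →* SemilinearAut K F)
    (hfix : ∀ y : F, (Set.range fun g : G => φ g • y).Finite → ∀ g : G, φ g • y = y)
    (Pinf : Place K F) (hPinf : ∀ g : G, φ g • Pinf = Pinf)
    (lc : F → K) (hlc0 : ∀ y : F, y ≠ 0 → lc y ≠ 0)
    (hlcK : ∀ (a : K) (y : F), lc (algebraMap K F a * y) = a * lc y)
    (hlcG : ∀ (g : G) (y : F), lc (φ g • y) = SemilinearAut.baseAut (φ g) (lc y))
    (n : ℕ) (hn : 0 < n) [Finite (Pic0.torsion K F n)] (u : F) (hu : u ≠ 0) (D : Divisor K F)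
    (hD : ∀ v : Place K F, v.ord u = n * D v) :
    ∃ (c : K) (f₀ h : F), c ≠ 0 ∧ f₀ ≠ 0 ∧ h ≠ 0 ∧ (∀ g : G, φ g • f₀ = f₀) ∧
      u = algebraMap K F c * f₀ * h ^ n :=
  exists_fixed_mul_pow hxt φ hfix Pinf hPinf lc hlc0 hlcK hlcG n hn u hu D hD
    (exists_finset_of_finite_torsion hxt φ n hn u hu D hD)

end Descent

end Fermat.Agent.Lib.FFSep
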