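import Mathlib
import Fermat.Prelude.Def_ModularCurve_ArithmeticGalois
import Fermat.Agent.Lib.FFSep.Descent
import Fermat.Agent.S24.PlaceVal

/-!
# The descent of `Lib/FFSep/Descent.lean` for Laurent-series function fields (helper2)

`B := laurentBaseChange L F₀ ⊆ L((q))`, with the coefficientwise action of `L ≃ₐ[ℚ] L`
(`ModularCurve.arithmeticGalois`).  This file supplies the three inputs of the abstract descent
`FFSep.exists_fixed_mul_pow_of_finite_torsion` in this situation:

* the `q`-order valuation `orderVal F₀` on `B`, its place `exists_cuspPlace`, and the invariance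
  of that place under every coefficientwise automorphism (`arithmeticGalois_smul_eq`);
* the leading coefficient `lcoeff` (`lcoeff_ne_zero`, `lcoeff_algebraMap_mul`,
  `lcoeff_arithmeticGalois_smul`);
* `arithmeticGalois_smul_eq_of_finite_orbit`: "finite orbit ⇒ fixed" passes from `L` to `B`,
  coefficient by coefficient;

and the packaged statement `exists_coeff_fixed_mul_pow`.
-/

set_option autoImplicit false

noncomputable section

namespace Fermat.Agent.Lib.FFSep

open AlgebraicCurve ModularCurve IntermediateField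
open scoped WithZero Pointwise

/-- In characteristic zero, a function field is separable over `K(x)`. -/
theorem isSeparable_of_charZero {K F : Type*} [Field K] [Field F] [Algebra K F] [CharZero K]
    (x : F) [FiniteDimensional K⟮x⟯ F] : Algebra.IsSeparable K⟮x⟯ F := by
  have : CharZero K⟮x⟯ :=
    charZero_of_injective_algebraMap (R := K) (A := K⟮x⟯) (FaithfulSMul.algebraMap_injective _ _)
  have : Algebra.IsAlgebraic K⟮x⟯ F := Algebra.IsAlgebraic.of_finite _ _
  exact Algebra.IsAlgebraic.isSeparable_of_perfectField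

section LaurentDescent

variable {L : Type*} [Field L] [Algebra ℚ L]
variable (F₀ : IntermediateField ℚ (LaurentSeries ℚ))

/-- The `q`-order valuation on `laurentBaseChange L F₀`. -/
def orderVal : Valuation (laurentBaseChange L F₀) ℤᵐ⁰ :=
  (Valued.v : Valuation (LaurentSeries L) ℤᵐ⁰).comap
    (algebraMap (laurentBaseChange L F₀) (LaurentSeries L))

theorem orderVal_apply (y : laurentBaseChange L F₀) :
    orderVal F₀ y = (Valued.v : Valuation (LaurentSeries L) ℤᵐ⁰) (y : LaurentSeries L) := rfl

theorem orderVal_le_exp_neg_iff (y : laurentBaseChange L F₀) (D : ℤ) :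
    orderVal F₀ y ≤ WithZero.exp (-D) ↔ ∀ k : ℤ, k < D → (y : LaurentSeries L).coeff k = 0 := by
  rw [orderVal_apply]
  exact LaurentSeries.valuation_le_iff_coeff_lt_eq_zero L

theorem orderVal_le_one_iff (y : laurentBaseChange L F₀) :
    orderVal F₀ y ≤ 1 ↔ ∀ k : ℤ, k < 0 → (y : LaurentSeries L).coeff k = 0 := by
  have h := orderVal_le_exp_neg_iff F₀ y 0
  rwa [neg_zero, WithZero.exp_zero] at h

theorem coe_algebraMap_laurentBaseChange (a : L) :
    ((algebraMap L (laurentBaseChange L F₀) a : laurentBaseChange L F₀) : LaurentSeries L)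
      = HahnSeries.single 0 a := by
  rw [← algebraMap_laurentSeries_eq_single]
  rfl

theorem orderVal_algebraMap (a : L) (ha : a ≠ 0) :
    orderVal F₀ (algebraMap L (laurentBaseChange L F₀) a) = 1 := by
  have h1 : ∀ b : L, orderVal F₀ (algebraMap L (laurentBaseChange L F₀) b) ≤ 1 := by
    intro b
    rw [orderVal_le_one_iff]
    intro k hk
    rw [coe_algebraMap_laurentBaseChange, HahnSeries.coeff_single_of_ne hk.ne]
  have h2 : orderVal F₀ (algebraMap L (laurentBaseChange L F₀) a) *
      orderVal F₀ (algebraMap L (laurentBaseChange L F₀) a⁻¹) = 1 := by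
    rw [← map_mul, ← map_mul, mul_inv_cancel₀ ha, map_one, map_one]
  refine le_antisymm (h1 a) ?_
  calc (1 : ℤᵐ⁰) = orderVal F₀ (algebraMap L (laurentBaseChange L F₀) a) *
        orderVal F₀ (algebraMap L (laurentBaseChange L F₀) a⁻¹) := h2.symm
    _ ≤ orderVal F₀ (algebraMap L (laurentBaseChange L F₀) a) * 1 := mul_le_mul_right (h1 a⁻¹) _
    _ = _ := mul_one _

/-- A transcendental element gives an element of nontrivial `q`-order. -/
theorem exists_orderVal_ne_one {x : laurentBaseChange L F₀} (hxt : Transcendental L x) :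
    ∃ m : laurentBaseChange L F₀, m ≠ 0 ∧ orderVal F₀ m ≠ 1 := by
  by_cases hx : orderVal F₀ x = 1
  · refine ⟨x - algebraMap L (laurentBaseChange L F₀) ((x : LaurentSeries L).coeff 0), ?_, ?_⟩
    · intro h
      apply hxt
      rw [sub_eq_zero.mp h]
      exact isAlgebraic_algebraMap _
    · have h1 : orderVal F₀
          (x - algebraMap L (laurentBaseChange L F₀) ((x : LaurentSeries L).coeff 0))
          ≤ WithZero.exp (-1 : ℤ) := by
        rw [orderVal_le_exp_neg_iff]
        intro k hk
        rw [AddSubgroupClass.coe_sub, HahnSeries.coeff_sub, coe_algebraMap_laurentBaseChange]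
        rcases eq_or_ne k 0 with rfl | hk0
        · rw [HahnSeries.coeff_single_same, sub_self]
        · rw [HahnSeries.coeff_single_of_ne hk0, sub_zero]
          exact (orderVal_le_one_iff F₀ x).mp hx.le k (by omega)
      intro h
      rw [h, ← WithZero.exp_zero, WithZero.exp_le_exp] at h1
      omega
  · exact ⟨x, fun h => hxt (h ▸ isAlgebraic_zero), hx⟩

/-- The cusp place of `laurentBaseChange L F₀`: its valuation ring consists of the elements
without principal part. -/
theorem exists_cuspPlace {x : laurentBaseChange L F₀} (hxt : Transcendental L x) :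
    ∃ P : Place L (laurentBaseChange L F₀),
      P.toValuationSubring = (orderVal F₀).valuationSubring :=
  let ⟨P, hP, _⟩ := Fermat.Agent.S24.exists_place_of_valuation (K := L) (orderVal F₀)
    (orderVal_algebraMap F₀) (exists_orderVal_ne_one F₀ hxt)
  ⟨P, hP⟩

theorem coeff_arithmeticGalois_smul (σ : L ≃ₐ[ℚ] L) (y : laurentBaseChange L F₀) (k : ℤ) :
    ((arithmeticGalois F₀ σ • y : laurentBaseChange L F₀) : LaurentSeries L).coeff k
      = σ ((y : LaurentSeries L).coeff k) := rfl

/-- Every coefficientwise automorphism fixes the cusp place. -/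
theorem arithmeticGalois_smul_eq (P : Place L (laurentBaseChange L F₀))
    (hP : P.toValuationSubring = (orderVal F₀).valuationSubring) (σ : L ≃ₐ[ℚ] L) :
    arithmeticGalois F₀ σ • P = P := by
  apply Place.ext
  rw [SemilinearAut.smul_toValuationSubring, hP]
  ext y
  rw [ValuationSubring.mem_pointwise_smul_iff_inv_smul_mem, ← map_inv]
  show orderVal F₀ (arithmeticGalois F₀ σ⁻¹ • y) ≤ 1 ↔ orderVal F₀ y ≤ 1
  rw [orderVal_le_one_iff, orderVal_le_one_iff]
  refine forall_congr' fun k => forall_congr' fun _ => ?_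
  rw [coeff_arithmeticGalois_smul]
  exact map_eq_zero_iff _ (σ⁻¹).injective

/-- The leading coefficient of an element of `laurentBaseChange L F₀`. -/
def lcoeff (y : laurentBaseChange L F₀) : L := (y : LaurentSeries L).leadingCoeff

theorem lcoeff_ne_zero (y : laurentBaseChange L F₀) (hy : y ≠ 0) : lcoeff F₀ y ≠ 0 := by
  rw [lcoeff, HahnSeries.leadingCoeff_ne_zero]
  exact fun h => hy (Subtype.ext h)

theorem lcoeff_algebraMap_mul (a : L) (y : laurentBaseChange L F₀) :
    lcoeff F₀ (algebraMap L (laurentBaseChange L F₀) a * y) = a * lcoeff F₀ y := by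
  rw [lcoeff, lcoeff, MulMemClass.coe_mul, HahnSeries.leadingCoeff_mul,
    coe_algebraMap_laurentBaseChange, HahnSeries.leadingCoeff_of_single]

omit [Algebra ℚ L] in
theorem order_coeffMap {S : Type*} [Field S] (f : L →+* S) (z : LaurentSeries L) :
    (coeffMap f z).order = z.order := by
  rcases eq_or_ne z 0 with rfl | hz
  · rw [map_zero, HahnSeries.order_zero, HahnSeries.order_zero]
  have hz' : coeffMap f z ≠ 0 := by
    intro h
    apply hz
    ext k
    have hk := congrArg (fun w => w.coeff k) h
    simpa using hk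
  refine le_antisymm ?_ ?_
  · refine HahnSeries.order_le_of_coeff_ne_zero ?_
    rw [coeffMap_coeff]
    exact fun h => hz (HahnSeries.coeff_order_eq_zero.mp ((map_eq_zero f).mp h))
  · refine HahnSeries.order_le_of_coeff_ne_zero ?_
    intro h0
    apply hz'
    rw [← HahnSeries.coeff_order_eq_zero, coeffMap_coeff, h0, map_zero]

omit [Algebra ℚ L] in
theorem leadingCoeff_coeffMap {S : Type*} [Field S] (f : L →+* S) (z : LaurentSeries L) :
    (coeffMap f z).leadingCoeff = f z.leadingCoeff := by
  rw [HahnSeries.leadingCoeff_eq, HahnSeries.leadingCoeff_eq, order_coeffMap, coeffMap_coeff]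

theorem lcoeff_arithmeticGalois_smul (σ : L ≃ₐ[ℚ] L) (y : laurentBaseChange L F₀) :
    lcoeff F₀ (arithmeticGalois F₀ σ • y) = σ (lcoeff F₀ y) := by
  rw [lcoeff, coe_arithmeticGalois_smul, leadingCoeff_coeffMap]
  rfl

/-- "Finite orbit ⇒ fixed" passes from `L` to `laurentBaseChange L F₀`. -/
theorem arithmeticGalois_smul_eq_of_finite_orbit {G : Type*} [Group G] (ψ : G →* (L ≃ₐ[ℚ] L))
    (hL : ∀ t : L, (Set.range fun g : G => ψ g t).Finite → ∀ g : G, ψ g t = t)
    (y : laurentBaseChange L F₀)
    (hy : (Set.range fun g : G => arithmeticGalois F₀ (ψ g) • y).Finite) (g : G) :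
    arithmeticGalois F₀ (ψ g) • y = y := by
  apply Subtype.ext
  ext k
  rw [coeff_arithmeticGalois_smul]
  refine hL _ ?_ g
  have h := hy.image (fun z : laurentBaseChange L F₀ => (z : LaurentSeries L).coeff k)
  refine h.subset ?_
  rintro _ ⟨g', rfl⟩
  exact ⟨_, ⟨g', rfl⟩, rfl⟩

/-- `laurentBaseChange L F₀` is separable over `L(x)` (characteristic zero). -/
theorem isSeparable_laurentBaseChange (x : laurentBaseChange L F₀)
    [FiniteDimensional L⟮x⟯ (laurentBaseChange L F₀)] :
    Algebra.IsSeparable L⟮x⟯ (laurentBaseChange L F₀) := by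
  have : CharZero L := algebraRat.charZero L
  exact isSeparable_of_charZero x

/-- **Descent for Laurent-series function fields.**  `L` algebraically closed, `G` a group of
automorphisms of `L` for which "finite orbit ⇒ fixed" (e.g. `G = Aut(L / L₀)` with `L₀`
algebraically closed), `B = laurentBaseChange L F₀` a function field over `L` with finite
`n`-torsion in `Pic⁰`.  Then every `u ∈ B^×` whose divisor is divisible by `n` is
`c · f₀ · h ^ n` with all coefficients of `f₀` fixed by `G`. -/
theorem exists_coeff_fixed_mul_pow [IsAlgClosed L] {G : Type*} [Group G]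
    (ψ : G →* (L ≃ₐ[ℚ] L))
    (hL : ∀ t : L, (Set.range fun g : G => ψ g t).Finite → ∀ g : G, ψ g t = t)
    {x : laurentBaseChange L F₀} (hxt : Transcendental L x)
    [FiniteDimensional L⟮x⟯ (laurentBaseChange L F₀)]
    (n : ℕ) (hn : 0 < n) [Finite (Pic0.torsion L (laurentBaseChange L F₀) n)]
    (u : laurentBaseChange L F₀) (hu : u ≠ 0)
    (hdiv : ∀ P : Place L (laurentBaseChange L F₀), (n : ℤ) ∣ P.ord u) :
    ∃ (c : L) (f₀ h : laurentBaseChange L F₀), c ≠ 0 ∧ f₀ ≠ 0 ∧ h ≠ 0 ∧
      (∀ (g : G) (k : ℤ),
        ψ g ((f₀ : LaurentSeries L).coeff k) = (f₀ : LaurentSeries L).coeff k) ∧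
      u = algebraMap L (laurentBaseChange L F₀) c * f₀ * h ^ n := by
  have := isSeparable_laurentBaseChange F₀ x
  obtain ⟨Pinf, hPinf⟩ := exists_cuspPlace F₀ hxt
  have hn0 : (n : ℤ) ≠ 0 := by exact_mod_cast hn.ne'
  let D : Divisor L (laurentBaseChange L F₀) :=
    (divOf hxt u).mapRange (fun m : ℤ => m / (n : ℤ)) (Int.zero_ediv _)
  have hD : ∀ v : Place L (laurentBaseChange L F₀), v.ord u = n * D v := by
    intro v
    show v.ord u = n * ((divOf hxt u).mapRange (fun m : ℤ => m / (n : ℤ)) (Int.zero_ediv _) v)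
    rw [Finsupp.mapRange_apply, divOf_apply, Int.mul_ediv_cancel' (hdiv v)]
  obtain ⟨c, f₀, h, hc, hf₀, hh, hfix, hu'⟩ :=
    exists_fixed_mul_pow_of_finite_torsion hxt ((arithmeticGalois F₀).comp ψ)
      (fun y hy g => arithmeticGalois_smul_eq_of_finite_orbit F₀ ψ hL y hy g)
      Pinf (fun g => arithmeticGalois_smul_eq F₀ Pinf hPinf (ψ g))
      (lcoeff F₀) (lcoeff_ne_zero F₀) (lcoeff_algebraMap_mul F₀)
      (fun g y => lcoeff_arithmeticGalois_smul F₀ (ψ g) y) n hn u hu D hD
  refine ⟨c, f₀, h, hc, hf₀, hh, fun g k => ?_, hu'⟩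
  have h1 := congrArg (fun z : laurentBaseChange L F₀ => (z : LaurentSeries L).coeff k) (hfix g)
  exact h1

end LaurentDescent

end Fermat.Agent.Lib.FFSep
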