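import Mathlib
import Fermat.Agent.Lib.FFSep.LaurentDescent
import Fermat.Agent.Lib.AutTranscendental
import Fermat.Agent.Lib.PlaceBaseChange
import Fermat.Agent.P5.Desc.Plan
import Fermat.Agent.P5.Desc.Deg

/-!
# P5 [DESC] — contract-free block export (helper2)

`K₀ ⊆ K₁` algebraically closed fields of characteristic zero (`ι : K₀ →+* K₁`),
`A = laurentBaseChange K₀ F₀`, `B = laurentBaseChange K₁ F₀`, `x₀ ∈ A` transcendental with
`A / K₀(x₀)` finite.  The statements of `P5/Desc/Plan.lean` (helper36), verbatim: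

* `fixedStmt ι : FixedStmt ι`                       (helper89's `Lib/AutTranscendental`);
* `extStmt ι F₀ x₀ hx₀ : ExtStmt ι F₀`              (helper68's `Lib/PlaceBaseChange`, helper31's
                                                     degree package);
* `descCoreStmt ι F₀ x₀ hx₀ n hn : DescCoreStmt ι F₀ n` and
  `descStmt ι F₀ x₀ hx₀ n hn : DescStmt ι F₀ n`     (from `FFSep.exists_coeff_fixed_mul_pow`),
  under the single external input `Finite (Pic0.torsion K₁ B n)`.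

No reduced-divisor contract is involved.
-/

set_option autoImplicit false
set_option linter.style.haveILetI false

noncomputable section

namespace Fermat.Agent.Lib.FFSep

open AlgebraicCurve ModularCurve IntermediateField
open Fermat.Agent.P5.Desc

section Generic

variable {K Ω : Type*} [Field K] [Field Ω] [Algebra K Ω] [Algebra ℚ Ω]

/-- Restriction of scalars `Aut(Ω / K) → Aut(Ω / ℚ)`. -/
def toRatAut : (Ω ≃ₐ[K] Ω) →* (Ω ≃ₐ[ℚ] Ω) where
  toFun σ := σ.toRingEquiv.toRatAlgEquiv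
  map_one' := by ext; rfl
  map_mul' σ τ := by ext; rfl

theorem toRatAut_apply (σ : Ω ≃ₐ[K] Ω) (t : Ω) : toRatAut σ t = σ t := rfl

/-- The descent with coefficients in the image of an algebraically closed subfield. -/
theorem exists_coeff_mem_range_mul_pow [CharZero K] [IsAlgClosed K] [IsAlgClosed Ω]
    (F₀ : IntermediateField ℚ (LaurentSeries ℚ))
    {x : laurentBaseChange Ω F₀} (hxt : Transcendental Ω x)
    [FiniteDimensional Ω⟮x⟯ (laurentBaseChange Ω F₀)]
    (n : ℕ) (hn : 0 < n) [Finite (Pic0.torsion Ω (laurentBaseChange Ω F₀) n)]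
    (u : laurentBaseChange Ω F₀) (hu : u ≠ 0)
    (hdiv : ∀ P : Place Ω (laurentBaseChange Ω F₀), (n : ℤ) ∣ P.ord u) :
    ∃ (c : Ω) (f₀ h : laurentBaseChange Ω F₀), c ≠ 0 ∧ f₀ ≠ 0 ∧ h ≠ 0 ∧
      (∀ k : ℤ, (f₀ : LaurentSeries Ω).coeff k ∈ Set.range (algebraMap K Ω)) ∧
      u = algebraMap Ω (laurentBaseChange Ω F₀) c * f₀ * h ^ n := by
  have hL : ∀ t : Ω, (Set.range fun g : Ω ≃ₐ[K] Ω => toRatAut g t).Finite →
      ∀ g : Ω ≃ₐ[K] Ω, toRatAut g t = t := by
    intro t ht g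
    obtain ⟨a, rfl⟩ := Fermat.Agent.Lib.AutTranscendental.mem_range_of_finite_orbit t ht
    exact g.commutes a
  obtain ⟨c, f₀, h, hc, hf₀, hh, hfix, hu'⟩ :=
    exists_coeff_fixed_mul_pow F₀ (toRatAut (K := K) (Ω := Ω)) hL hxt n hn u hu hdiv
  exact ⟨c, f₀, h, hc, hf₀, hh, fun k =>
    Fermat.Agent.Lib.AutTranscendental.mem_range_of_fixed _ (fun σ => hfix σ k), hu'⟩

end Generic

section DescExport

variable {K₀ K₁ : Type*} [Field K₀] [Field K₁]

/-- A Laurent series all of whose coefficients lie in the image of `ι` is a coefficientwise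
image. -/
theorem exists_coeffMap_eq (ι : K₀ →+* K₁) (z : LaurentSeries K₁)
    (hz : ∀ k : ℤ, z.coeff k ∈ Set.range ι) : ∃ g : LaurentSeries K₀, coeffMap ι g = z := by
  choose c hc using hz
  have hsupp : Function.support c ⊆ z.support := by
    intro k hk
    rw [Function.mem_support] at hk
    rw [HahnSeries.mem_support, ← hc k]
    exact (map_ne_zero ι).mpr hk
  refine ⟨⟨c, z.isPWO_support.mono hsupp⟩, ?_⟩
  ext k
  rw [coeffMap_coeff]
  exact hc k

variable [Algebra ℚ K₀] [Algebra ℚ K₁]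
variable (ι : K₀ →+* K₁) (F₀ : IntermediateField ℚ (LaurentSeries ℚ))

omit [Algebra ℚ K₁] in
/-- **[D1]**, verbatim: `FixedStmt ι` for algebraically closed fields of characteristic zero. -/
theorem fixedStmt [IsAlgClosed K₀] [IsAlgClosed K₁] : FixedStmt ι := by
  letI : Algebra K₀ K₁ := ι.toAlgebra
  have : CharZero K₀ := algebraRat.charZero K₀
  intro H hH t ht
  exact Fermat.Agent.Lib.AutTranscendental.mem_range_of_fixed_of_finiteIndex H t ht

/-- **[D3b]**, verbatim: `ExtStmt ι F₀`, given a separating variable of `A`. -/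
theorem extStmt [IsAlgClosed K₀] [IsAlgClosed K₁] (x₀ : laurentBaseChange K₀ F₀)
    (hx₀ : Transcendental K₀ x₀) [FiniteDimensional K₀⟮x₀⟯ (laurentBaseChange K₀ F₀)] :
    ExtStmt ι F₀ := by
  obtain ⟨ht₁, hfd₁, hdeg⟩ := Deg.degree_package ι F₀ hx₀
  have := isSeparable_laurentBaseChange F₀ x₀
  have := isSeparable_laurentBaseChange F₀ (baseMap ι F₀ x₀)
  have S : Fermat.Agent.Lib.PlaceBaseChange.Setup ι (baseMap ι F₀) x₀ (baseMap ι F₀ x₀) :=
    { map_algebraMap := baseMap_algebraMap ι F₀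
      map_x := rfl
      trans₀ := hx₀
      trans₁ := ht₁
      finrank_eq := hdeg
      const := mem_range_algebraMap_of_baseMap_mem ι F₀ }
  intro p
  exact ⟨S.ext p, S.ord_ext p⟩

/-- **`DescCoreStmt ι F₀ n`**, verbatim, under the single external input
`Finite (Pic0.torsion K₁ B n)`. -/
theorem descCoreStmt [IsAlgClosed K₀] [IsAlgClosed K₁] (x₀ : laurentBaseChange K₀ F₀)
    (hx₀ : Transcendental K₀ x₀) [FiniteDimensional K₀⟮x₀⟯ (laurentBaseChange K₀ F₀)]
    (n : ℕ) (hn : n ≠ 0) [Finite (Pic0.torsion K₁ (laurentBaseChange K₁ F₀) n)] :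
    DescCoreStmt ι F₀ n := by
  letI : Algebra K₀ K₁ := ι.toAlgebra
  have : CharZero K₀ := algebraRat.charZero K₀
  obtain ⟨ht₁, hfd₁, -⟩ := Deg.degree_package ι F₀ hx₀
  intro u hu hdiv
  obtain ⟨c, f₁, h, hc, hf₁, hh, hcoef, hu'⟩ :=
    exists_coeff_mem_range_mul_pow (K := K₀) F₀ ht₁ n (Nat.pos_of_ne_zero hn) u hu hdiv
  obtain ⟨g, hg⟩ := exists_coeffMap_eq ι (f₁ : LaurentSeries K₁) hcoef
  have hgA : g ∈ laurentBaseChange K₀ F₀ :=
    mem_laurentBaseChange_of_coeffMap_mem ι F₀ g (by rw [hg]; exact f₁.2)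
  have hb : baseMap ι F₀ ⟨g, hgA⟩ = f₁ := Subtype.ext hg
  refine ⟨c, ⟨g, hgA⟩, h, hc, ?_, hh, ?_⟩
  · intro h0
    apply hf₁
    rw [← hb, h0, map_zero]
  · rw [hb]
    exact hu'

/-- **`DescStmt ι F₀ n` — the block export of [DESC]**, verbatim, under the single external
input `Finite (Pic0.torsion K₁ B n)`. -/
theorem descStmt [IsAlgClosed K₀] [IsAlgClosed K₁] (x₀ : laurentBaseChange K₀ F₀)
    (hx₀ : Transcendental K₀ x₀) [FiniteDimensional K₀⟮x₀⟯ (laurentBaseChange K₀ F₀)]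
    (n : ℕ) (hn : n ≠ 0) [Finite (Pic0.torsion K₁ (laurentBaseChange K₁ F₀) n)] :
    DescStmt ι F₀ n := by
  intro u hu hdiv
  obtain ⟨c, f₀, h, hc, hf₀, hh, hu'⟩ := descCoreStmt ι F₀ x₀ hx₀ n hn u hu hdiv
  refine ⟨c, f₀, h, hc, hf₀, hh, hu', fun p => ?_⟩
  obtain ⟨P, hP⟩ := extStmt ι F₀ x₀ hx₀ p
  rw [← hP f₀]
  have hb0 : baseMap ι F₀ f₀ ≠ 0 := (map_ne_zero _).mpr hf₀
  have hc0 : algebraMap K₁ (laurentBaseChange K₁ F₀) c ≠ 0 := (map_ne_zero _).mpr hc
  have h1 : P.ord u = P.ord (baseMap ι F₀ f₀) + (n : ℤ) * P.ord h := by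
    rw [hu', P.ord_mul (mul_ne_zero hc0 hb0) (pow_ne_zero n hh), P.ord_mul hc0 hb0,
      Fermat.Agent.Lib.FFPlaces.ord_algebraMap, zero_add, ← zpow_natCast, P.ord_zpow]
  have h2 : P.ord (baseMap ι F₀ f₀) = P.ord u - (n : ℤ) * P.ord h := by rw [h1]; ring
  rw [h2]
  exact dvd_sub (hdiv P) (dvd_mul_right _ _)

end DescExport

end Fermat.Agent.Lib.FFSep
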