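import Mathlib
import Fermat.Agent.Lib.FFSep.Divisor

/-!
# Function field toolbox, part 3b: the norm formula on unions of fibres (helper2)

`F / K` a function field, `x : F` separating, `K` algebraically closed, `n = [F : K(x)]`.
`Lib/FFSep/Norm` gives, fibre by fibre over the `x`-line,
`∑_{v | t} ord_v (N f) = n · ∑_{v | t} ord_v f`.  Here the same identity is stated on every set
of places which is a union of fibres (`sum_ord_norm_of_saturated`), in particular on
`zerosOver x D = {v | ∃ a ∈ D, 0 < ord_v (x - a)}` (the places over a set `D` of points of the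
affine line, e.g. a residue disc) and on its complement (the places over the other points and
over `∞`).
-/

set_option autoImplicit false

noncomputable section

namespace Fermat.Agent.Lib.FFSep

open AlgebraicCurve IntermediateField

section Generic

/-- Fibrewise comparison of two finitely supported integer functions on a union of fibres of a
cover by pairwise disjoint finite sets. -/
theorem finsum_mem_eq_mul_finsum_mem_of_cover {α ι : Type*} (fib : ι → Set α)
    (hdisj : Pairwise (Function.onFun Disjoint fib)) (hfin : ∀ t, (fib t).Finite)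
    (hcover : ∀ v, ∃ t, v ∈ fib t) {h₁ h₂ : α → ℤ} (hf₁ : (Function.support h₁).Finite)
    (hf₂ : (Function.support h₂).Finite) (n : ℤ)
    (hfib : ∀ t, ∑ᶠ v ∈ fib t, h₁ v = n * ∑ᶠ v ∈ fib t, h₂ v)
    (S : Set α) (hS : ∀ t, fib t ⊆ S ∨ Disjoint (fib t) S) :
    ∑ᶠ v ∈ S, h₁ v = n * ∑ᶠ v ∈ S, h₂ v := by
  classical
  rw [finsum_mem_def, finsum_mem_def]
  refine finsum_eq_mul_finsum_of_cover fib hdisj hfin hcover
    (hf₁.subset (by rw [Set.support_indicator]; exact Set.inter_subset_right))
    (hf₂.subset (by rw [Set.support_indicator]; exact Set.inter_subset_right)) n (fun t => ?_)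
  rcases hS t with h | h
  · rw [finsum_mem_congr rfl (fun v hv => Set.indicator_of_mem (h hv) h₁),
      finsum_mem_congr rfl (fun v hv => Set.indicator_of_mem (h hv) h₂)]
    exact hfib t
  · rw [finsum_mem_congr rfl
        (fun v hv => Set.indicator_of_notMem (Set.disjoint_left.mp h hv) h₁),
      finsum_mem_congr rfl
        (fun v hv => Set.indicator_of_notMem (Set.disjoint_left.mp h hv) h₂),
      finsum_mem_zero, mul_zero]

end Generic

section Fibres

variable {K F : Type*} [Field K] [Field F] [Algebra K F] {x : F}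

/-- A set of places is *saturated* (for `x`) if it is a union of fibres of the `x`-line. -/
def IsSaturated (K : Type*) {F : Type*} [Field K] [Field F] [Algebra K F] (x : F)
    (S : Set (Place K F)) : Prop :=
  ∀ t : Option K, fibre K x t ⊆ S ∨ Disjoint (fibre K x t) S

theorem IsSaturated.compl {S : Set (Place K F)} (hS : IsSaturated K x S) :
    IsSaturated K x Sᶜ := by
  intro t
  rcases hS t with h | h
  · exact Or.inr (Set.disjoint_compl_right_iff_subset.mpr h)
  · exact Or.inl (Set.subset_compl_iff_disjoint_right.mpr h)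

theorem isSaturated_fibre (t : Option K) : IsSaturated K x (fibre K x t) := by
  intro s
  by_cases hst : s = t
  · exact Or.inl (hst ▸ le_rfl)
  · exact Or.inr (fibre_disjoint hst)

theorem IsSaturated.iUnion {ι : Sort*} {S : ι → Set (Place K F)}
    (hS : ∀ i, IsSaturated K x (S i)) : IsSaturated K x (⋃ i, S i) := by
  intro t
  by_cases h : ∃ i, fibre K x t ⊆ S i
  · obtain ⟨i, hi⟩ := h
    exact Or.inl (hi.trans (Set.subset_iUnion S i))
  · push Not at h
    refine Or.inr (Set.disjoint_iUnion_right.mpr fun i => ?_)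
    exact (hS i t).resolve_left (h i)

/-- The places over the points of a set `D` of the affine `x`-line. -/
def zerosOver (x : F) (D : Set K) : Set (Place K F) :=
  {v | ∃ a ∈ D, 0 < v.ord (x - algebraMap K F a)}

theorem zerosOver_eq_iUnion (D : Set K) :
    zerosOver x D = ⋃ a ∈ D, fibre K x (some a) := by
  ext v
  simp only [zerosOver, Set.mem_ofPred_eq, Set.mem_iUnion, exists_prop]
  rfl

theorem isSaturated_zerosOver (D : Set K) : IsSaturated K x (zerosOver x D) := by
  rw [zerosOver_eq_iUnion]
  exact IsSaturated.iUnion fun a => IsSaturated.iUnion fun _ => isSaturated_fibre (some a)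

/-- For `f ≠ 0`: `f` is a non-unit of the valuation ring of `v` iff `ord_v f > 0`. -/
theorem mem_nonunits_iff_ord_pos (v : Place K F) {f : F} (hf : f ≠ 0) :
    f ∈ v.toValuationSubring.nonunits ↔ 0 < v.ord f := by
  rw [FFPlaces.ord_pos_iff v hf, ValuationSubring.mem_nonunits_iff]
  have hv : v.toValuationSubring.valuation f * v.toValuationSubring.valuation f⁻¹ = 1 := by
    rw [← map_mul, mul_inv_cancel₀ hf, map_one]
  constructor
  · intro h
    refine ⟨(ValuationSubring.valuation_le_one_iff _ _).mp h.le, fun hinv => ?_⟩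
    have h2 := (ValuationSubring.valuation_le_one_iff _ _).mpr hinv
    have h3 : v.toValuationSubring.valuation f * v.toValuationSubring.valuation f⁻¹ < 1 :=
      lt_of_le_of_lt (mul_le_of_le_one_right zero_le h2) h
    exact absurd hv h3.ne
  · rintro ⟨h1, h2⟩
    refine lt_of_le_of_ne ((ValuationSubring.valuation_le_one_iff _ _).mpr h1) fun h => h2 ?_
    rw [h, one_mul] at hv
    exact (ValuationSubring.valuation_le_one_iff _ _).mp hv.le

/-- `zerosOver` in the `nonunits` spelling. -/
theorem mem_zerosOver_iff_nonunits (hxt : Transcendental K x) (D : Set K) (v : Place K F) :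
    v ∈ zerosOver x D ↔
      ∃ a ∈ D, x - algebraMap K F a ∈ v.toValuationSubring.nonunits := by
  have hne : ∀ a : K, x - algebraMap K F a ≠ 0 := fun a h =>
    hxt ((sub_eq_zero.mp h) ▸ isAlgebraic_algebraMap a)
  constructor
  · rintro ⟨a, ha, h⟩
    exact ⟨a, ha, (mem_nonunits_iff_ord_pos v (hne a)).mpr h⟩
  · rintro ⟨a, ha, h⟩
    exact ⟨a, ha, (mem_nonunits_iff_ord_pos v (hne a)).mp h⟩

variable [FiniteDimensional K⟮x⟯ F] [Algebra.IsSeparable K⟮x⟯ F] [IsAlgClosed K]

/-- **The norm formula on a union of fibres.** -/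
theorem sum_ord_norm_of_saturated (hxt : Transcendental K x) {S : Set (Place K F)}
    (hS : IsSaturated K x S) {f : F} (hf : f ≠ 0) :
    ∑ᶠ v ∈ S, v.ord (algebraMap K⟮x⟯ F (Algebra.norm K⟮x⟯ f)) =
      (Module.finrank K⟮x⟯ F : ℤ) * ∑ᶠ v ∈ S, v.ord f :=
  finsum_mem_eq_mul_finsum_mem_of_cover (fibre K x) fibre_disjoint (fibre_finite hxt)
    (fibre_cover hxt) (finite_support_ord hxt _) (finite_support_ord hxt f) _
    (fun t => by
      cases t with
      | none => exact sum_ord_norm_poles hxt hf
      | some a => exact sum_ord_norm hxt a hf) S hS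

/-- The norm formula over a set `D` of points of the affine line (e.g. a residue disc). -/
theorem sum_ord_norm_zerosOver (hxt : Transcendental K x) (D : Set K) {f : F} (hf : f ≠ 0) :
    ∑ᶠ v ∈ zerosOver x D, v.ord (algebraMap K⟮x⟯ F (Algebra.norm K⟮x⟯ f)) =
      (Module.finrank K⟮x⟯ F : ℤ) * ∑ᶠ v ∈ zerosOver x D, v.ord f :=
  sum_ord_norm_of_saturated hxt (isSaturated_zerosOver D) hf

/-- The norm formula over the complement of a set `D` of points of the affine line (the other
points and `∞`). -/
theorem sum_ord_norm_zerosOver_compl (hxt : Transcendental K x) (D : Set K) {f : F}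
    (hf : f ≠ 0) :
    ∑ᶠ v ∈ (zerosOver x D)ᶜ, v.ord (algebraMap K⟮x⟯ F (Algebra.norm K⟮x⟯ f)) =
      (Module.finrank K⟮x⟯ F : ℤ) * ∑ᶠ v ∈ (zerosOver x D)ᶜ, v.ord f :=
  sum_ord_norm_of_saturated hxt (isSaturated_zerosOver D).compl hf

/-- For `g ∈ K(x)` the norm is the `n`-th power, so on a union of fibres the orders of `g`
itself are computed by those of any `f` with `N f = g`; cancellation form: two elements with
the same norm have the same sum of orders on every union of fibres. -/
theorem sum_ord_eq_of_norm_eq (hxt : Transcendental K x) {S : Set (Place K F)}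
    (hS : IsSaturated K x S) {f g : F} (hf : f ≠ 0) (hg : g ≠ 0)
    (h : Algebra.norm K⟮x⟯ f = Algebra.norm K⟮x⟯ g) :
    ∑ᶠ v ∈ S, v.ord f = ∑ᶠ v ∈ S, v.ord g := by
  have h1 := sum_ord_norm_of_saturated hxt hS hf
  have h2 := sum_ord_norm_of_saturated hxt hS hg
  rw [h, h2] at h1
  have hn : (Module.finrank K⟮x⟯ F : ℤ) ≠ 0 := by
    exact_mod_cast (Module.finrank_pos (R := K⟮x⟯) (M := F)).ne'
  exact (mul_left_cancel₀ hn h1).symm

end Fibres

end Fermat.Agent.Lib.FFSep
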